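import Fermat.Prelude.Def_GaloisRep_DeformationRingData
import Fermat.Prelude.Def_GaloisRep_LocalConditions
import Fermat.Prelude.Def_GaloisRep_StrictOrdinary
import Fermat.Prelude.Def_GaloisRep_Flat
import Fermat.Prelude.Def_GaloisRep_Residual
import Mathlib.RingTheory.MvPowerSeries.Basic
import Fermat.Agent.S53.AuxLemmas

/-!
# P-S56 (Taylor–Wiles primes): top-level cut (architect C, helper72)

`S56 = (T1) + (T2)` for each of the two conjuncts (strict ordinary / flat).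

* `(T1)` (`TangentToSurj`, block C1, pure commutative algebra): a bound `(#k)^r` on the number of
  `𝒪`-algebra homomorphisms `R → k[ε]` gives a surjection `𝒪⟦x₁,…,x_r⟧ ↠ R`.
* `(T2)` (`SelmerCount`, the Taylor–Wiles/Greenberg–Wiles core): there is `r` such that for every
  `n` there are `r` Taylor–Wiles primes of level `n` for which every deformation ring of the given
  type has at most `(#k)^r` homomorphisms to the dual numbers.

This file contains only the definitions of these two statements and the (trivial) derivation of the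
frozen statement S56 from them.
-/

set_option autoImplicit false

open Polynomial IsLocalRing

namespace Fermat.Agent.S56x

/-- The strict-ordinary deformation condition of S56 with ramification set `Smin ∪ Q`. -/
def condSO (𝒪 : Type) [CommRing 𝒪] (p : ℕ) (Smin Q : Finset ℕ) :
    ∀ ⦃A : Type⦄ [CommRing A] [IsLocalRing A] [Algebra 𝒪 A], GaloisRepAdic A → Prop :=
  fun _A _ _ _ ρ => GaloisRep.strictOrdinaryCondition 𝒪 p (Smin ∪ Q) ρ ∧
    ∀ q ∈ Smin, q.Prime → q ≠ p → ρ.IsUnipotentOnInertiaAt q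

/-- The flat deformation condition of S56 with ramification set `Smin ∪ Q`. -/
def condFlat (𝒪 : Type) [CommRing 𝒪] (p : ℕ) (Smin Q : Finset ℕ) :
    ∀ ⦃A : Type⦄ [CommRing A] [IsLocalRing A] [Algebra 𝒪 A], GaloisRepAdic A → Prop :=
  fun _A _ _ _ ρ => GaloisRep.flatCondition 𝒪 p (Smin ∪ Q) ρ ∧
    ∀ q ∈ Smin, q.Prime → q ≠ p → ρ.IsUnipotentOnInertiaAt q

/-- `qv : Fin r → ℕ` is a family of `r` distinct Taylor–Wiles primes of level `n` for `ρbar`,
avoiding `S`. -/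
def IsTWFamily {k : Type} [Field k] (ρbar : ResidualGaloisRep k) (p : ℕ) (S : Finset ℕ)
    (n r : ℕ) (qv : Fin r → ℕ) : Prop :=
  Function.Injective qv ∧
    (∀ i, (qv i).Prime ∧ qv i ∉ S ∧ p ^ (n + 1) ∣ qv i - 1) ∧
    (∀ i, ∀ P : ValuationSubring (AlgebraicClosure ℚ), P.LiesOverPrime (qv i) →
      ∀ φ : AlgebraicClosure ℚ ≃ₐ[ℚ] AlgebraicClosure ℚ, P.IsFrobeniusAt φ (qv i) →
        ∃ α β : k, α ≠ β ∧ LinearMap.charpoly (ρbar.ρ φ) = (X - C α) * (X - C β))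

/-- The hypotheses of the frozen statement S56 on `ρbar`, `S`, `Smin`, bundled. -/
structure Hyp {𝒪 : Type} [CommRing 𝒪] [IsLocalRing 𝒪]
    (p : ℕ) (ρbar : ResidualGaloisRep (ResidueField 𝒪)) (S Smin : Finset ℕ) : Prop where
  hp2 : p ≠ 2
  hp𝒪 : (p : 𝒪) ∈ maximalIdeal 𝒪
  habs : ρbar.IsAbsolutelyIrreducible
  hdet : (GaloisRepAdic.ofResidualGaloisRep ρbar).DetIsCyclotomic p
  hsplit : ∀ σ : AlgebraicClosure ℚ ≃ₐ[ℚ] AlgebraicClosure ℚ,
      ∃ α β : ResidueField 𝒪, LinearMap.charpoly (ρbar.ρ σ) = (X - C α) * (X - C β)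
  hTW : ∀ (K : Type) [Field K] [Algebra (ResidueField 𝒪) K]
      (G : Subgroup (AlgebraicClosure ℚ ≃ₐ[ℚ] AlgebraicClosure ℚ)), G.index = 2 →
      ∀ V : Submodule K (ρbar.baseChange K).V,
        (∀ σ ∈ G, ∀ x ∈ V, (ρbar.baseChange K).ρ σ x ∈ V) → V = ⊥ ∨ V = ⊤
  hpSmin : p ∈ Smin
  hSmin : Smin ⊆ S
  hS : ∀ q ∈ S, q.Prime
  hmin : ∀ q : ℕ, q.Prime → q ≠ p → (q ∈ Smin ↔ ¬ ρbar.IsUnramifiedAt q)

/-- **(T1)** for a single ring `R`: a bound on the number of tangent vectors gives a surjection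
from a power series ring. -/
def TangentToSurj (𝒪 : Type) [CommRing 𝒪] [IsLocalRing 𝒪] (R : Type) [CommRing R]
    [Algebra 𝒪 R] (r : ℕ) : Prop :=
  letI : Algebra 𝒪 (DualNumber (ResidueField 𝒪)) := Fermat.Agent.S53.dualNumberAlgebra 𝒪
  (∀ s : Finset (R →ₐ[𝒪] DualNumber (ResidueField 𝒪)),
      s.card ≤ Nat.card (ResidueField 𝒪) ^ r) →
    ∃ γ : MvPowerSeries (Fin r) 𝒪 →ₐ[𝒪] R, Function.Surjective γ

/-- The tangent-count conclusion for one deformation ring. -/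
def TangentCountLE (𝒪 : Type) [CommRing 𝒪] [IsLocalRing 𝒪] (R : Type) [CommRing R]
    [Algebra 𝒪 R] (r : ℕ) : Prop :=
  letI : Algebra 𝒪 (DualNumber (ResidueField 𝒪)) := Fermat.Agent.S53.dualNumberAlgebra 𝒪
  ∀ s : Finset (R →ₐ[𝒪] DualNumber (ResidueField 𝒪)),
    s.card ≤ Nat.card (ResidueField 𝒪) ^ r

section Main

variable {𝒪 : Type} [CommRing 𝒪] [IsDomain 𝒪] [IsDiscreteValuationRing 𝒪]
  [IsAdicComplete (maximalIdeal 𝒪) 𝒪]

/-- **(T2)** for a deformation condition depending on the set `Q` of auxiliary primes. -/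
def SelmerCount (p : ℕ) (ρbar : ResidualGaloisRep (ResidueField 𝒪)) (S : Finset ℕ)
    (cond : Finset ℕ → ∀ ⦃A : Type⦄ [CommRing A] [IsLocalRing A] [Algebra 𝒪 A],
      GaloisRepAdic A → Prop) : Prop :=
  ∃ r : ℕ, ∀ n : ℕ, ∃ qv : Fin r → ℕ, IsTWFamily ρbar p S n r qv ∧
    ∀ DQ : GaloisRep.DeformationRingData 𝒪 ρbar (cond (Finset.univ.image qv)),
      TangentCountLE 𝒪 DQ.R r

/-- One conjunct of S56 from (T1) and (T2). -/
theorem conjunct_of_T1_T2 (p : ℕ) (ρbar : ResidualGaloisRep (ResidueField 𝒪)) (S : Finset ℕ)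
    (cond : Finset ℕ → ∀ ⦃A : Type⦄ [CommRing A] [IsLocalRing A] [Algebra 𝒪 A],
      GaloisRepAdic A → Prop)
    (hT1 : ∀ (Q : Finset ℕ) (DQ : GaloisRep.DeformationRingData 𝒪 ρbar (cond Q)) (r : ℕ),
      TangentToSurj 𝒪 DQ.R r)
    (hT2 : SelmerCount p ρbar S cond) :
    ∃ r : ℕ, ∀ n : ℕ, ∃ qv : Fin r → ℕ, Function.Injective qv ∧
      (∀ i, (qv i).Prime ∧ qv i ∉ S ∧ p ^ (n + 1) ∣ qv i - 1) ∧
      (∀ i, ∀ P : ValuationSubring (AlgebraicClosure ℚ), P.LiesOverPrime (qv i) →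
        ∀ φ : AlgebraicClosure ℚ ≃ₐ[ℚ] AlgebraicClosure ℚ, P.IsFrobeniusAt φ (qv i) →
          ∃ α β : ResidueField 𝒪, α ≠ β ∧
            LinearMap.charpoly (ρbar.ρ φ) = (X - C α) * (X - C β)) ∧
      ∀ DQ : GaloisRep.DeformationRingData 𝒪 ρbar (cond (Finset.univ.image qv)),
        ∃ γ : MvPowerSeries (Fin r) 𝒪 →ₐ[𝒪] DQ.R, Function.Surjective γ := by
  obtain ⟨r, hr⟩ := hT2
  refine ⟨r, fun n => ?_⟩
  obtain ⟨qv, ⟨hinj, hpr, hfrob⟩, hDQ⟩ := hr n
  exact ⟨qv, hinj, hpr, hfrob, fun DQ => hT1 _ DQ r (hDQ DQ)⟩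

end Main

end Fermat.Agent.S56x
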