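import Mathlib
import Fermat.Prelude.Def_ExtCitation_KummerBridge
import Fermat.Prelude.Def_ExtEndgame_ProductionDatum
import Fermat.Agent.S53.MatrixRep
import Fermat.Agent.S56x.Assembly.TopLevel
import Fermat.Agent.S56x.Dict.Conditions

/-!
# P-S56, block (C): basic consequences of the frozen hypotheses (`Hyp`)

Bookkeeping shared by the files of block (C) (requested by helper72, owner helper29).

* residue field: `natCast_residueField_eq_zero`, `charP_residueField`, `algZMod` (the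
  `ZMod p`-algebra structure `ZMod.algebra k p`), `natCard_eq_pow_finrank`
  (`#k = p ^ [k : 𝔽_p]`), `natCard_pow_eq` (`(#k)^r = p ^ (r * [k : 𝔽_p])`);
* sets of primes: `toPrimes : Finset ℕ → Finset Nat.Primes` (`mem_toPrimes`, `toPrimes_union`,
  `toPrimes_mono`, `pPrime_mem_toPrimes`, `card_toPrimes`, `toPrimes_image`) and the transfer
  `forall_prime_notMem_iff` between "`∀ q : ℕ, q.Prime → q ∉ S → …`" (frozen deformation
  conditions) and "`∀ q : Nat.Primes, q ∉ S' → …`" (`continuousH1S`, `Dict/Conditions`);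
* `unramifiedOutside_toPrimes_iff`, `condSO_unramified`, `condFlat_unramified`,
  `condSO_detIsCyclotomic`, `condFlat_detIsCyclotomic`, `condSO_unipotent`, `condFlat_unipotent`,
  `condSO_strictOrdinary`, `condFlat_flat` : the components of the two deformation conditions;
* the matrix model `rbarOf ρbar := S53.toMatResOfBasis ρbar (S53.chosenBasisRes ρbar)`:
  `rbarOf_eq_one_iff`, `rbarOf_isUnramifiedAt_iff`, `rbarOf_inertia_eq_one` (from `Hyp.hmin`),
  `det_rbarOf`, `charpoly_rbarOf`, `trace_rbarOf`;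
* the determinant: `apply_eq_pow_cycloExp'`, `det_rbarOf_of_pow`, `det_rbarOf_eq_cycloExp`,
  `det_rbarOf_eq_cycloChar` (`det rbar σ = χ_p(σ)` in `k`).
-/

set_option autoImplicit false
set_option linter.unusedSectionVars false
set_option linter.style.haveILetI false

noncomputable section

namespace Fermat.Agent.S56x.Basics

open IsLocalRing Polynomial Fermat.Agent.S53 Fermat.Agent.S56x Fermat.Agent.S56x.Dict

local notation "Γℚ" => (AlgebraicClosure ℚ ≃ₐ[ℚ] AlgebraicClosure ℚ)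
local notation "M₂" => Matrix (Fin 2) (Fin 2)

/-! ### The residue field -/

section ResidueField

variable {𝒪 : Type} [CommRing 𝒪] [IsLocalRing 𝒪] (p : ℕ)

theorem natCast_residueField_eq_zero (hp𝒪 : (p : 𝒪) ∈ maximalIdeal 𝒪) :
    (p : ResidueField 𝒪) = 0 := by
  have h : residue 𝒪 (p : 𝒪) = 0 := (residue_eq_zero_iff _).mpr hp𝒪
  rwa [map_natCast] at h

/-- the residue field has characteristic `p`. -/
theorem charP_residueField [Fact p.Prime] (hp𝒪 : (p : 𝒪) ∈ maximalIdeal 𝒪) :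
    CharP (ResidueField 𝒪) p :=
  (CharP.charP_iff_prime_eq_zero (Fact.out : p.Prime)).mpr (natCast_residueField_eq_zero p hp𝒪)

end ResidueField

section FiniteField

variable (p : ℕ) [Fact p.Prime] (k : Type) [Field k] [CharP k p]

/-- **the `𝔽_p`-algebra structure of a field of characteristic `p`** used throughout block (C):
`ZMod.algebra k p`. -/
@[reducible] def algZMod : Algebra (ZMod p) k := ZMod.algebra k p

theorem algebraMap_algZMod_natCast (a : ℕ) :
    letI := algZMod p k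
    algebraMap (ZMod p) k (a : ZMod p) = (a : k) := by
  letI := algZMod p k
  exact map_natCast _ a

/-- `#k = p ^ [k : 𝔽_p]`. -/
theorem natCard_eq_pow_finrank [Finite k] :
    letI := algZMod p k
    Nat.card k = p ^ Module.finrank (ZMod p) k := by
  letI := algZMod p k
  have h := Module.natCard_eq_pow_finrank (K := ZMod p) (V := k)
  rwa [Nat.card_zmod] at h

/-- `(#k)^r = p ^ (r * [k : 𝔽_p])`. -/
theorem natCard_pow_eq [Finite k] (r : ℕ) :
    letI := algZMod p k
    Nat.card k ^ r = p ^ (Module.finrank (ZMod p) k * r) := by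
  letI := algZMod p k
  rw [natCard_eq_pow_finrank p k, pow_mul]

theorem finrank_pos_algZMod [Finite k] :
    letI := algZMod p k
    0 < Module.finrank (ZMod p) k := by
  letI := algZMod p k
  haveI : Module.Finite (ZMod p) k := Module.Finite.of_finite
  exact Module.finrank_pos

end FiniteField

/-! ### Sets of primes -/

section Primes

/-- the primes of a finite set of natural numbers, as a `Finset Nat.Primes`. -/
def toPrimes (S : Finset ℕ) : Finset Nat.Primes := S.subtype Nat.Prime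

@[simp] theorem mem_toPrimes {S : Finset ℕ} {q : Nat.Primes} : q ∈ toPrimes S ↔ (q : ℕ) ∈ S :=
  Finset.mem_subtype

theorem mem_toPrimes_mk {S : Finset ℕ} {q : ℕ} (hq : q.Prime) :
    (⟨q, hq⟩ : Nat.Primes) ∈ toPrimes S ↔ q ∈ S := mem_toPrimes

theorem toPrimes_union (S T : Finset ℕ) : toPrimes (S ∪ T) = toPrimes S ∪ toPrimes T := by
  ext q
  simp only [mem_toPrimes, Finset.mem_union]

theorem toPrimes_mono {S T : Finset ℕ} (h : S ⊆ T) : toPrimes S ⊆ toPrimes T := fun _ hq =>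
  mem_toPrimes.mpr (h (mem_toPrimes.mp hq))

theorem pPrime_mem_toPrimes {p : ℕ} [Fact p.Prime] {S : Finset ℕ} (hp : p ∈ S) :
    ExtCitation.pPrime p ∈ toPrimes S := mem_toPrimes.mpr hp

theorem pPrime_mem_toPrimes_iff {p : ℕ} [Fact p.Prime] {S : Finset ℕ} :
    ExtCitation.pPrime p ∈ toPrimes S ↔ p ∈ S := mem_toPrimes

theorem ne_pPrime_iff {p : ℕ} [Fact p.Prime] (q : Nat.Primes) :
    q ≠ ExtCitation.pPrime p ↔ (q : ℕ) ≠ p := by
  constructor
  · intro h h'
    exact h (Subtype.ext h')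
  · intro h h'
    exact h (congrArg Subtype.val h')

/-- if `S` consists of primes, `toPrimes S` maps bijectively onto `S`. -/
theorem toPrimes_image {S : Finset ℕ} (hS : ∀ q ∈ S, q.Prime) :
    (toPrimes S).image (fun q : Nat.Primes => (q : ℕ)) = S := by
  ext q
  simp only [Finset.mem_image, mem_toPrimes]
  constructor
  · rintro ⟨q', hq', rfl⟩
    exact hq'
  · intro hq
    exact ⟨⟨q, hS q hq⟩, hq, rfl⟩

theorem card_toPrimes {S : Finset ℕ} (hS : ∀ q ∈ S, q.Prime) : (toPrimes S).card = S.card := by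
  conv_rhs => rw [← toPrimes_image hS]
  exact (Finset.card_image_of_injective _ Subtype.val_injective).symm

/-- the image of an injective family of primes. -/
theorem toPrimes_image_univ {r : ℕ} (qv : Fin r → ℕ) (hq : ∀ i, (qv i).Prime) :
    toPrimes (Finset.univ.image qv) = Finset.univ.image fun i => (⟨qv i, hq i⟩ : Nat.Primes) := by
  ext q
  constructor
  · intro h
    obtain ⟨i, -, hi⟩ := Finset.mem_image.mp (mem_toPrimes.mp h)
    exact Finset.mem_image.mpr ⟨i, Finset.mem_univ i, Subtype.ext hi⟩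
  · intro h
    obtain ⟨i, -, hi⟩ := Finset.mem_image.mp h
    exact mem_toPrimes.mpr (Finset.mem_image.mpr ⟨i, Finset.mem_univ i, congrArg Subtype.val hi⟩)

/-- **transfer** between the two ways of quantifying over the primes outside `S`. -/
theorem forall_prime_notMem_iff (S : Finset ℕ) (P : ℕ → Prop) :
    (∀ q : ℕ, q.Prime → q ∉ S → P q) ↔ ∀ q : Nat.Primes, q ∉ toPrimes S → P (q : ℕ) := by
  constructor
  · intro h q hq
    exact h q q.2 fun hq' => hq (mem_toPrimes.mpr hq')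
  · intro h q hq hqS
    exact h ⟨q, hq⟩ fun hq' => hqS (mem_toPrimes.mp hq')

/-- the same for the primes of `S` different from `p`. -/
theorem forall_mem_prime_ne_iff (S : Finset ℕ) (p : ℕ) [Fact p.Prime] (P : ℕ → Prop) :
    (∀ q ∈ S, q.Prime → q ≠ p → P q) ↔
      ∀ q ∈ toPrimes S, q ≠ ExtCitation.pPrime p → P (q : ℕ) := by
  constructor
  · intro h q hq hqp
    exact h q (mem_toPrimes.mp hq) q.2 ((ne_pPrime_iff q).mp hqp)
  · intro h q hqS hq hqp
    exact h ⟨q, hq⟩ (mem_toPrimes.mpr hqS) ((ne_pPrime_iff _).mpr hqp)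

end Primes

/-! ### The components of the deformation conditions -/

section Conditions

variable {𝒪 : Type} [CommRing 𝒪] {p : ℕ} {Smin Q : Finset ℕ}
  {A : Type} [CommRing A] [IsLocalRing A] [Algebra 𝒪 A] {ρ : GaloisRepAdic A}

/-- **"unramified outside `S`" in the two formalisms.** -/
theorem unramifiedOutside_toPrimes_iff (ρ : GaloisRepAdic A) (S : Finset ℕ) :
    (∀ q : ℕ, q.Prime → q ∉ S → ρ.IsUnramifiedAt q) ↔
      ∀ q : Nat.Primes, q ∉ toPrimes S → ρ.IsUnramifiedAt (q : ℕ) :=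
  forall_prime_notMem_iff S fun q => ρ.IsUnramifiedAt q

theorem condSO_detIsCyclotomic (h : condSO 𝒪 p Smin Q ρ) : ρ.DetIsCyclotomic p := h.1.1

theorem condSO_strictOrdinary (h : condSO 𝒪 p Smin Q ρ) : ρ.IsStrictOrdinaryAt p := h.1.2.1

theorem condSO_unramified (h : condSO 𝒪 p Smin Q ρ) :
    ∀ q : Nat.Primes, q ∉ toPrimes (Smin ∪ Q) → ρ.IsUnramifiedAt (q : ℕ) :=
  (unramifiedOutside_toPrimes_iff ρ (Smin ∪ Q)).mp h.1.2.2

theorem condSO_unipotent (h : condSO 𝒪 p Smin Q ρ) :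
    ∀ q ∈ Smin, q.Prime → q ≠ p → ρ.IsUnipotentOnInertiaAt q := h.2

theorem condFlat_detIsCyclotomic (h : condFlat 𝒪 p Smin Q ρ) : ρ.DetIsCyclotomic p := h.1.1

theorem condFlat_flat (h : condFlat 𝒪 p Smin Q ρ) : ρ.IsFlatAt p := h.1.2.1

theorem condFlat_unramified (h : condFlat 𝒪 p Smin Q ρ) :
    ∀ q : Nat.Primes, q ∉ toPrimes (Smin ∪ Q) → ρ.IsUnramifiedAt (q : ℕ) :=
  (unramifiedOutside_toPrimes_iff ρ (Smin ∪ Q)).mp h.1.2.2

theorem condFlat_unipotent (h : condFlat 𝒪 p Smin Q ρ) :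
    ∀ q ∈ Smin, q.Prime → q ≠ p → ρ.IsUnipotentOnInertiaAt q := h.2

end Conditions

/-! ### The matrix model of `ρbar` -/

section RBar

variable {k : Type} [Field k] (ρbar : ResidualGaloisRep k)

/-- **the matrix model of `ρbar`** used throughout block (C). -/
def rbarOf : Γℚ →* M₂ k := toMatResOfBasis ρbar (chosenBasisRes ρbar)

theorem rbarOf_apply (σ : Γℚ) :
    rbarOf ρbar σ = LinearMap.toMatrix (chosenBasisRes ρbar) (chosenBasisRes ρbar) (ρbar.ρ σ) :=
  rfl

theorem hrbarOf : GaloisFactorsThroughFiniteLevel (rbarOf ρbar) :=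
  factorsThroughFiniteLevel_toMatResOfBasis ρbar (chosenBasisRes ρbar)

/-- `ρbar` is equivalent to its matrix model. -/
def equivRbarOf : ρbar.Equiv (ofMatRes (rbarOf ρbar) (hrbarOf ρbar)) :=
  equivOfMatResOfBasis ρbar (chosenBasisRes ρbar)

theorem rbarOf_eq_one_iff (σ : Γℚ) : rbarOf ρbar σ = 1 ↔ ρbar.ρ σ = 1 := by
  rw [rbarOf_apply]
  constructor
  · intro h
    apply (LinearMap.toMatrix (chosenBasisRes ρbar) (chosenBasisRes ρbar)).injective
    rw [h]
    exact (LinearMap.toMatrix_one _).symm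
  · intro h
    rw [h]
    exact LinearMap.toMatrix_one _

/-- **the matrix model is unramified at `q` iff `ρbar` is.** -/
theorem rbarOf_isUnramifiedAt_iff (q : ℕ) :
    (∀ P : ValuationSubring (AlgebraicClosure ℚ), P.LiesOverPrime q →
      ∀ σ ∈ P.inertiaSubgroupIn ℚ, rbarOf ρbar σ = 1) ↔ ρbar.IsUnramifiedAt q := by
  constructor
  · intro h P hP σ hσ
    exact (rbarOf_eq_one_iff ρbar σ).mp (h P hP σ hσ)
  · intro h P hP σ hσ
    exact (rbarOf_eq_one_iff ρbar σ).mpr (h P hP σ hσ)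

theorem det_rbarOf (σ : Γℚ) : (rbarOf ρbar σ).det = LinearMap.det (ρbar.ρ σ) := by
  rw [rbarOf_apply, LinearMap.det_toMatrix]

theorem charpoly_rbarOf (σ : Γℚ) :
    (rbarOf ρbar σ).charpoly = LinearMap.charpoly (ρbar.ρ σ) := by
  rw [rbarOf_apply, LinearMap.charpoly_toMatrix]

theorem trace_rbarOf (σ : Γℚ) : (rbarOf ρbar σ).trace = LinearMap.trace k ρbar.V (ρbar.ρ σ) := by
  rw [rbarOf_apply, LinearMap.trace_eq_matrix_trace k (chosenBasisRes ρbar)]

end RBar

/-! ### The determinant -/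

section Det

variable (p : ℕ) [hp : Fact p.Prime]

/-- Galois action on a `p`-th root of unity through `cycloExp` (copy of
`Lib/CFT/Global/SVersion/ESbarRep.apply_eq_pow_cycloExp`, to keep this file light). -/
theorem apply_eq_pow_cycloExp' (σ : Γℚ) {ζ : AlgebraicClosure ℚ} (hζ : ζ ^ p = 1) :
    σ ζ = ζ ^ ExtCitation.cycloExp p σ := by
  have : NeZero p := ⟨hp.out.ne_zero⟩
  have hζ0 : ζ ≠ 0 := by
    rintro rfl
    rw [zero_pow hp.out.ne_zero] at hζ
    exact zero_ne_one hζ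
  have hmem : Units.mk0 ζ hζ0 ∈ rootsOfUnity p (AlgebraicClosure ℚ) := by
    rw [mem_rootsOfUnity]
    exact Units.ext (by simpa using hζ)
  have := modularCyclotomicCharacter.spec (AlgebraicClosure ℚ)
    (ExtCitation.card_rootsOfUnity_eq_self p) (σ : AlgebraicClosure ℚ ≃+* AlgebraicClosure ℚ) hmem
  simpa [ExtCitation.cycloExp] using this

variable {p} {k : Type} [Field k] (ρbar : ResidualGaloisRep k)

/-- `det ρbar(σ) = a` in `k` whenever `σ` acts on the `p`-th roots of unity by `μ ↦ μ ^ a`. -/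
theorem det_of_pow (hdet : (GaloisRepAdic.ofResidualGaloisRep ρbar).DetIsCyclotomic p)
    (σ : Γℚ) (a : ℕ) (ha : ∀ μ : AlgebraicClosure ℚ, μ ^ p = 1 → σ μ = μ ^ a) :
    LinearMap.det (ρbar.ρ σ) = (a : k) := by
  have hpk : (p : k) = 0 := by
    have h := hdet.1
    rw [IsLocalRing.mem_maximalIdeal, mem_nonunits_iff, isUnit_iff_ne_zero, not_not] at h
    exact h
  have h1 := hdet.2 1 σ a (fun μ hμ => ha μ (by rwa [pow_one] at hμ))
  have hspan : Ideal.span {((p ^ 1 : ℕ) : k)} = ⊥ := by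
    rw [pow_one, hpk]
    exact Ideal.span_singleton_eq_bot.mpr rfl
  rw [hspan, Ideal.mem_bot, sub_eq_zero] at h1
  exact h1

theorem det_rbarOf_of_pow (hdet : (GaloisRepAdic.ofResidualGaloisRep ρbar).DetIsCyclotomic p)
    (σ : Γℚ) (a : ℕ) (ha : ∀ μ : AlgebraicClosure ℚ, μ ^ p = 1 → σ μ = μ ^ a) :
    (rbarOf ρbar σ).det = (a : k) := by
  rw [det_rbarOf, det_of_pow ρbar hdet σ a ha]

/-- `det rbar(σ) = cycloExp p σ` in `k`. -/
theorem det_rbarOf_eq_cycloExp
    (hdet : (GaloisRepAdic.ofResidualGaloisRep ρbar).DetIsCyclotomic p) (σ : Γℚ) :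
    (rbarOf ρbar σ).det = (ExtCitation.cycloExp p σ : k) :=
  det_rbarOf_of_pow ρbar hdet σ _ fun _ hμ => apply_eq_pow_cycloExp' p σ hμ

/-- **`det rbar = χ_p`** (the mod `p` cyclotomic character of the Prelude), in `k` via
`ZMod.algebra k p`. -/
theorem det_rbarOf_eq_cycloChar [CharP k p]
    (hdet : (GaloisRepAdic.ofResidualGaloisRep ρbar).DetIsCyclotomic p) (σ : Γℚ) :
    letI := algZMod p k
    (rbarOf ρbar σ).det = algebraMap (ZMod p) k ((ExtCitation.cycloChar p σ : (ZMod p)ˣ) : ZMod p) := by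
  letI := algZMod p k
  rw [ExtCitation.coe_cycloChar, map_natCast]
  exact det_rbarOf_eq_cycloExp ρbar hdet σ

/-- if `σ` fixes the `p`-th roots of unity then `det rbar(σ) = 1`. -/
theorem det_rbarOf_eq_one_of_fixes
    (hdet : (GaloisRepAdic.ofResidualGaloisRep ρbar).DetIsCyclotomic p) (σ : Γℚ)
    (hσ : ∀ μ : AlgebraicClosure ℚ, μ ^ p = 1 → σ μ = μ) : (rbarOf ρbar σ).det = 1 := by
  have h := det_rbarOf_of_pow ρbar hdet σ 1 fun μ hμ => by rw [hσ μ hμ, pow_one]
  rwa [Nat.cast_one] at h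

end Det

/-! ### From the bundled hypotheses -/

section OfHyp

variable {𝒪 : Type} [CommRing 𝒪] [IsLocalRing 𝒪] {p : ℕ} [Fact p.Prime]
  {ρbar : ResidualGaloisRep (ResidueField 𝒪)} {S Smin : Finset ℕ}

theorem _root_.Fermat.Agent.S56x.Hyp.charP (H : Hyp (𝒪 := 𝒪) p ρbar S Smin) : CharP (ResidueField 𝒪) p :=
  charP_residueField p H.hp𝒪

theorem _root_.Fermat.Agent.S56x.Hyp.pPrime_mem_Smin (H : Hyp (𝒪 := 𝒪) p ρbar S Smin) :
    ExtCitation.pPrime p ∈ toPrimes Smin := pPrime_mem_toPrimes H.hpSmin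

theorem _root_.Fermat.Agent.S56x.Hyp.pPrime_mem_S (H : Hyp (𝒪 := 𝒪) p ρbar S Smin) :
    ExtCitation.pPrime p ∈ toPrimes S := pPrime_mem_toPrimes (H.hSmin H.hpSmin)

theorem _root_.Fermat.Agent.S56x.Hyp.prime_of_mem_Smin (H : Hyp (𝒪 := 𝒪) p ρbar S Smin) {q : ℕ} (hq : q ∈ Smin) :
    q.Prime := H.hS q (H.hSmin hq)

/-- `ρbar` (in matrix form) is unramified outside `Smin`. -/
theorem _root_.Fermat.Agent.S56x.Hyp.rbarOf_inertia_eq_one (H : Hyp (𝒪 := 𝒪) p ρbar S Smin) (q : Nat.Primes)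
    (hq : q ∉ toPrimes Smin) (P : ValuationSubring (AlgebraicClosure ℚ))
    (hP : P.LiesOverPrime (q : ℕ)) (σ : Γℚ) (hσ : σ ∈ P.inertiaSubgroupIn ℚ) :
    rbarOf ρbar σ = 1 := by
  have hqp : (q : ℕ) ≠ p := fun h => hq (mem_toPrimes.mpr (h ▸ H.hpSmin))
  have hur : ρbar.IsUnramifiedAt (q : ℕ) := by
    by_contra hram
    exact hq (mem_toPrimes.mpr ((H.hmin q q.2 hqp).mpr hram))
  exact (rbarOf_isUnramifiedAt_iff ρbar q).mpr hur P hP σ hσ

/-- `ρbar` is ramified at the primes of `Smin` other than `p`. -/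
theorem _root_.Fermat.Agent.S56x.Hyp.not_isUnramifiedAt (H : Hyp (𝒪 := 𝒪) p ρbar S Smin) {q : ℕ} (hq : q ∈ Smin)
    (hqp : q ≠ p) : ¬ ρbar.IsUnramifiedAt q :=
  (H.hmin q (H.prime_of_mem_Smin hq) hqp).mp hq

theorem _root_.Fermat.Agent.S56x.Hyp.det_rbarOf (H : Hyp (𝒪 := 𝒪) p ρbar S Smin) (σ : Γℚ) :
    (rbarOf ρbar σ).det = (ExtCitation.cycloExp p σ : ResidueField 𝒪) :=
  det_rbarOf_eq_cycloExp ρbar H.hdet σ

end OfHyp

end Fermat.Agent.S56x.Basics
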