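import Mathlib
import Fermat.Agent.S56x.GW.Interface

/-!
# P-S56 (C5): the Selmer count from the Greenberg–Wiles inequality

`finrank_sel_le` : for a good module `M` over `S ∋ p` with `H⁰(G_ℚ, M) = 0`, local conditions
`L v ≤ locH1` whose dual Selmer group vanishes and with
`∑_v dim L_v ≤ ∑_v h⁰(G_v, M) + N`, one has `dim Sel_L(M) ≤ N`.

`card_add_one_le` : hence a finite set of distinct nonzero elements of `Sel_L(M)` has at most
`p ^ N - 1` elements.
-/

set_option autoImplicit false
set_option linter.style.haveILetI false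

open CategoryTheory groupCohomology ExtCitation Module

namespace Fermat.Agent.S56x.Assembly

open Fermat.Agent.S56x.GW

local notation "Γℚ" => (AlgebraicClosure ℚ ≃ₐ[ℚ] AlgebraicClosure ℚ)

variable {p : ℕ} [Fact p.Prime]

/-- The Greenberg–Wiles count with vanishing dual Selmer group. -/
theorem finrank_sel_le (B : GWPackage p) (hp2 : p ≠ 2) (S : Finset Nat.Primes)
    (hpS : pPrime p ∈ S) (M : Rep (ZMod p) Γℚ) [FiniteDimensional (ZMod p) M]
    (hM : IsGoodModule p S M)
    (L : ∀ v : extArithIndex S, Submodule (ZMod p) (H1 (Rep.res (extArithLoc S v) M)))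
    (hL : ∀ v, L v ≤ locH1 S M v)
    (hH0 : finrank (ZMod p) M.ρ.invariants = 0)
    (hdual : finrank (ZMod p) (Sel S (tateDual p M) (dualCond B.pairingAt S M L)) = 0)
    (N : ℕ)
    (hloc : ∑ v, finrank (ZMod p) (L v) ≤ ∑ v, finrank (ZMod p) (locH0 S M v) + N) :
    finrank (ZMod p) (Sel S M L) ≤ N := by
  have h := B.gw_le hp2 S hpS M hM L hL
  rw [hH0, hdual] at h
  omega

/-- A finite set of distinct nonzero elements of a subspace `W` of dimension `≤ N` over `𝔽_p` has
at most `p ^ N - 1` elements. -/
theorem card_add_one_le_of_finrank_le {V : Type*} [AddCommGroup V] [Module (ZMod p) V]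
    (W : Submodule (ZMod p) V) [Module.Finite (ZMod p) W] (N : ℕ)
    (hW : finrank (ZMod p) W ≤ N) {ι : Type*} (T : Finset ι) (f : ι → V)
    (hf : ∀ i ∈ T, f i ∈ W) (hinj : ∀ i ∈ T, ∀ j ∈ T, f i = f j → i = j)
    (hne : ∀ i ∈ T, f i ≠ 0) : T.card + 1 ≤ p ^ N := by
  classical
  haveI : Finite W := Module.finite_of_finite (ZMod p)
  haveI : Fintype W := Fintype.ofFinite W
  have hcard : Fintype.card W = p ^ finrank (ZMod p) W := by
    rw [Module.card_eq_pow_finrank (K := ZMod p) (V := W), ZMod.card]
  -- the map `Option T → W`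
  let g : Option {i // i ∈ T} → W := fun o =>
    match o with
    | none => 0
    | some i => ⟨f i.1, hf i.1 i.2⟩
  have hg : Function.Injective g := by
    intro a b hab
    match a, b with
    | none, none => rfl
    | none, some j =>
      exfalso
      have : (0 : V) = f j.1 := congrArg Subtype.val hab
      exact hne j.1 j.2 this.symm
    | some i, none =>
      exfalso
      have : f i.1 = (0 : V) := congrArg Subtype.val hab
      exact hne i.1 i.2 this
    | some i, some j =>
      have : f i.1 = f j.1 := congrArg Subtype.val hab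
      have := hinj i.1 i.2 j.1 j.2 this
      exact congrArg some (Subtype.ext this)
  have h1 := Fintype.card_le_of_injective g hg
  rw [Fintype.card_option, Fintype.card_coe, hcard] at h1
  exact h1.trans (Nat.pow_le_pow_right (Fact.out : p.Prime).pos hW)

end Fermat.Agent.S56x.Assembly
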