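import Mathlib
import Fermat.Agent.S56x.GW.Interface
import Fermat.Agent.S56x.Dict.Ad0Rep
import Fermat.Agent.S56x.Assembly.GWCount

/-!
# P-S56 (C5): the cocycle count for a fixed set of auxiliary primes

`cocycleCount_fixed`: let `S' ∋ p` be a finite set of primes, `M = ad⁰ ρbar`, `P` a predicate on
tangent cocycles (think: "the lift of `c` is of type `𝒟_Q`") such that every `c` with `P c` is
trace-zero valued, unramified outside `S'`, and has localisations in `L v`.  If the dual Selmer
group of `L` vanishes, `H⁰(G_ℚ, M) = 0` and `∑ dim L_v ≤ ∑ h⁰_v + N`, then every finite set `T` of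
pairwise non-cohomologous cocycles with `P`, none cohomologous to `0`, has `T.card + 1 ≤ p ^ N`.
-/

set_option autoImplicit false
set_option linter.style.haveILetI false
set_option linter.unusedSectionVars false

open CategoryTheory groupCohomology ExtCitation Module

noncomputable section

namespace Fermat.Agent.S56x.Assembly

open Fermat.Agent.S56x.GW Fermat.Agent.S56x.Dict Fermat.Agent.S53

local notation "Γℚ" => (AlgebraicClosure ℚ ≃ₐ[ℚ] AlgebraicClosure ℚ)
local notation "M₂" => Matrix (Fin 2) (Fin 2)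

variable {k : Type} [Field k] {p : ℕ} [Fact p.Prime] [Algebra (ZMod p) k]
  [Module.Finite (ZMod p) k]

/-- The zero tangent cocycle. -/
def zeroTanCocycle (rbar : Γℚ →* M₂ k) : TanCocycle rbar where
  c _ := 0
  map_mul' σ τ := by simp
  open' := ⟨⊥, inferInstance, fun _ _ => rfl⟩

lemma toClass_zeroTanCocycle (rbar : Γℚ →* M₂ k) :
    (zeroTanCocycle rbar).toClass (p := p) (fun _ => Matrix.trace_zero _ _) = 0 := by
  unfold TanCocycle.toClass
  have : (zeroTanCocycle rbar).toCocycle (p := p) (fun _ => Matrix.trace_zero _ _) = 0 := by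
    apply Subtype.ext
    funext σ
    apply Subtype.ext
    rfl
  rw [this, map_zero]

theorem cocycleCount_fixed (B : GWPackage p) (hp2 : p ≠ 2)
    (rbar : Γℚ →* M₂ k) (hrbar : GaloisFactorsThroughFiniteLevel rbar)
    (S' : Finset Nat.Primes) (hpS : pPrime p ∈ S')
    (hgood : IsGoodModule p S' (ad0Rep p rbar))
    (P : TanCocycle rbar → Prop)
    (htr : ∀ c, P c → ∀ σ, (c.c σ).trace = 0)
    (hur : ∀ c, P c → ∀ q : Nat.Primes, q ∉ S' → (c.lift hrbar).IsUnramifiedAt (q : ℕ))
    (L : ∀ v : extArithIndex S',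
      Submodule (ZMod p) (H1 (Rep.res (extArithLoc S' v) (ad0Rep p rbar))))
    (hL : ∀ v, L v ≤ locH1 S' (ad0Rep p rbar) v)
    (hloc : ∀ c (hc : P c) (v : extArithIndex S'),
      (locRes (extArithLoc S') (ad0Rep p rbar) v).hom (c.toClass (p := p) (htr c hc)) ∈ L v)
    (hH0 : finrank (ZMod p) (ad0Rep p rbar).ρ.invariants = 0)
    (hdual : finrank (ZMod p)
      (Sel S' (tateDual p (ad0Rep p rbar)) (dualCond B.pairingAt S' (ad0Rep p rbar) L)) = 0)
    (N : ℕ)
    (hsum : ∑ v, finrank (ZMod p) (L v) ≤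
      ∑ v, finrank (ZMod p) (locH0 S' (ad0Rep p rbar) v) + N)
    (T : Finset (TanCocycle rbar)) (hT : ∀ c ∈ T, P c)
    (hpair : ∀ c ∈ T, ∀ c' ∈ T, TanCocycle.Cohomologous c c' → c = c')
    (hnz : ∀ c ∈ T, ∀ c₀ : TanCocycle rbar, (∀ σ, c₀.c σ = 0) →
      ¬ TanCocycle.Cohomologous c₀ c) :
    T.card + 1 ≤ p ^ N := by
  classical
  have hfin : Module.Finite (ZMod p) (continuousH1S S' (ad0Rep p rbar)) := B.finite_H1S S' hpS (ad0Rep p rbar) hgood
  have hle : Sel S' (ad0Rep p rbar) L ≤ continuousH1S S' (ad0Rep p rbar) := inf_le_left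
  haveI : Module.Finite (ZMod p) (Sel S' (ad0Rep p rbar) L) := by
    haveI := hfin
    haveI : IsNoetherian (ZMod p) (continuousH1S S' (ad0Rep p rbar)) := inferInstance
    exact Module.Finite.of_injective (Submodule.inclusion hle) (Submodule.inclusion_injective hle)
  have hW := finrank_sel_le B hp2 S' hpS (ad0Rep p rbar) hgood L hL hH0 hdual N hsum
  let f : TanCocycle rbar → H1 (ad0Rep p rbar) := fun c =>
    if hc : P c then c.toClass (p := p) (htr c hc) else 0
  have hf : ∀ c, (hc : P c) → f c = c.toClass (p := p) (htr c hc) := fun c hc => dif_pos hc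
  refine card_add_one_le_of_finrank_le (Sel S' (ad0Rep p rbar) L) N hW T f ?_ ?_ ?_
  · intro c hc
    rw [hf c (hT c hc)]
    refine ⟨TanCocycle.toClass_mem_continuousH1S hrbar c _ S' (hur c (hT c hc)), ?_⟩
    rw [SetLike.mem_coe, mem_selmer_iff]
    exact fun v => hloc c (hT c hc) v
  · intro c hc c' hc' h
    rw [hf c (hT c hc), hf c' (hT c' hc')] at h
    exact hpair c hc c' hc' (TanCocycle.cohomologous_of_toClass_eq _ _ h)
  · intro c hc h
    rw [hf c (hT c hc)] at h
    have h0 : (zeroTanCocycle rbar).toClass (p := p) (fun _ => Matrix.trace_zero _ _) =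
        c.toClass (p := p) (htr c (hT c hc)) := by
      rw [h, toClass_zeroTanCocycle]
    exact hnz c hc (zeroTanCocycle rbar) (fun _ => rfl)
      (TanCocycle.cohomologous_of_toClass_eq _ _ h0)

end Fermat.Agent.S56x.Assembly

end
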