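import Mathlib
import Fermat.Agent.S56x.Assembly.TopLevel
import Fermat.Agent.S56x.Assembly.Basics
import Fermat.Agent.S56x.Assembly.FixedQ
import Fermat.Agent.S56x.Dict.Main
import Fermat.Agent.S56x.Dict.SelMember

/-!
# P-S56 (C5): `SelmerCount` from the block outputs (hypothesis style)

`selmerCount_of_inputs` derives the statement `(T2) = SelmerCount p ρbar S cond` of
`Assembly/TopLevel.lean` from

* `B : GWPackage p` (block B), `hMono`-type vanishing of the dual Selmer group (`hDual`),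
* the dictionary stability `hEQ`, `hBC` of the condition `cond` (block C2),
* local conditions `Lq q` at the primes of `Smin` with their bounds and membership (blocks A, C4),
* the archimedean count `hinf`, the count at Taylor–Wiles primes `hTW`, `H⁰ = 0` (`hH0`),
* the selection of Taylor–Wiles primes killing `H¹(G_{Smin}, ad⁰(1))` (`hselect`; blocks D, E),
* the bookkeeping lemma `hSum`.

All hypotheses are stated in the formalism of `GW/Interface.lean` for `M = ad0Rep p (rbarOf ρbar)`.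
-/

set_option autoImplicit false
set_option linter.style.haveILetI false
set_option linter.unusedSectionVars false

open CategoryTheory groupCohomology ExtCitation Module IsLocalRing

noncomputable section

namespace Fermat.Agent.S56x.Assembly

open Fermat.Agent.S56x Fermat.Agent.S56x.GW Fermat.Agent.S56x.Dict Fermat.Agent.S56x.Basics
  Fermat.Agent.S53

local notation "Γℚ" => (AlgebraicClosure ℚ ≃ₐ[ℚ] AlgebraicClosure ℚ)
local notation "M₂" => Matrix (Fin 2) (Fin 2)

variable {𝒪 : Type} [CommRing 𝒪] [IsDomain 𝒪] [IsDiscreteValuationRing 𝒪]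
  [IsAdicComplete (maximalIdeal 𝒪) 𝒪] [Finite (ResidueField 𝒪)]
variable (p : ℕ) [Fact p.Prime] [CharP (ResidueField 𝒪) p]
variable (ρbar : ResidualGaloisRep (ResidueField 𝒪)) (S Smin : Finset ℕ)

attribute [local instance] dualNumberAlgebra

/-- The `𝔽_p`-algebra structure on the residue field. -/
local instance instAlgZMod : Algebra (ZMod p) (ResidueField 𝒪) := algZMod p (ResidueField 𝒪)

local instance instFinZMod : Module.Finite (ZMod p) (ResidueField 𝒪) := Module.Finite.of_finite

/-- The local conditions on `S'` built from a family of conditions at the primes of `S₀`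
(`⊥` at infinity, everything continuous at the primes outside `S₀`). -/
def localConds (S₀ S' : Finset Nat.Primes) (M : Rep (ZMod p) Γℚ)
    (Lq : ∀ q : Nat.Primes, Submodule (ZMod p) (H1 (Rep.res (primeLocalToGlobal q) M))) :
    ∀ v : extArithIndex S', Submodule (ZMod p) (H1 (Rep.res (extArithLoc S' v) M))
  | Sum.inl _ => ⊥
  | Sum.inr q => by
      classical
      exact if q.1 ∈ S₀ then Lq q.1 else locH1 S' M (Sum.inr q)

theorem selmerCount_of_inputs (hyp : Hyp p ρbar S Smin)
    (cond : Finset ℕ → ∀ ⦃A : Type⦄ [CommRing A] [IsLocalRing A] [Algebra 𝒪 A],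
      GaloisRepAdic A → Prop)
    (B : GWPackage p)
    -- (C2) dictionary stability
    (hEQ : ∀ (Q : Finset ℕ) (ρ ρ' : GaloisRepAdic (DualNumber (ResidueField 𝒪))),
      ρ.IsEquiv ρ' → cond Q ρ → cond Q ρ')
    (hBC : ∀ (Q : Finset ℕ) (DQ : GaloisRep.DeformationRingData 𝒪 ρbar (cond Q))
      (φ : DQ.R →ₐ[𝒪] DualNumber (ResidueField 𝒪))
      (hφ : IsLocalHom (φ : DQ.R →+* DualNumber (ResidueField 𝒪))), Function.Surjective φ →
      cond Q (DQ.ρ.baseChangeAlong (φ : DQ.R →+* DualNumber (ResidueField 𝒪)) hφ))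
    -- consequences of `cond` for tangent cocycles
    (htr : ∀ (Q : Finset ℕ) (c : TanCocycle (rbarOf ρbar)), cond Q (c.lift (hrbarOf ρbar)) →
      ∀ σ, (c.c σ).trace = 0)
    (hur : ∀ (Q : Finset ℕ) (c : TanCocycle (rbarOf ρbar)), cond Q (c.lift (hrbarOf ρbar)) →
      ∀ q : Nat.Primes, q ∉ toPrimes Smin ∪ toPrimes Q →
        (c.lift (hrbarOf ρbar)).IsUnramifiedAt (q : ℕ))
    -- local conditions at the primes of `Smin`
    (Lq : ∀ q : Nat.Primes, Submodule (ZMod p)
      (H1 (Rep.res (primeLocalToGlobal q) (ad0Rep p (rbarOf ρbar)))))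
    (hLq : ∀ q ∈ toPrimes Smin, Lq q ≤ continuousH1 (primeLocalToGlobal q)
      (Rep.res (primeLocalToGlobal q) (ad0Rep p (rbarOf ρbar))))
    (hLqmem : ∀ (Q : Finset ℕ) (c : TanCocycle (rbarOf ρbar))
      (hc : cond Q (c.lift (hrbarOf ρbar))), ∀ q ∈ toPrimes Smin,
      (locRes (fun q : Nat.Primes => primeLocalToGlobal q) (ad0Rep p (rbarOf ρbar)) q).hom
        (c.toClass (p := p) (htr Q c hc)) ∈ Lq q)
    (hLp : finrank (ZMod p) (Lq (pPrime p)) ≤
      finrank (ZMod p) (Rep.res (primeLocalToGlobal (pPrime p))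
        (ad0Rep p (rbarOf ρbar))).ρ.invariants + finrank (ZMod p) (ResidueField 𝒪))
    (hLSmin : ∀ q ∈ toPrimes Smin, q ≠ pPrime p → finrank (ZMod p) (Lq q) ≤
      finrank (ZMod p) (Rep.res (primeLocalToGlobal q) (ad0Rep p (rbarOf ρbar))).ρ.invariants)
    -- archimedean count
    (hinf : ∀ (S' : Finset Nat.Primes) (u : Unit), finrank (ZMod p) (ResidueField 𝒪) ≤
      finrank (ZMod p) (locH0 S' (ad0Rep p (rbarOf ρbar)) (Sum.inl u)))
    -- count at Taylor–Wiles primes
    (hTW : ∀ (S' : Finset Nat.Primes) (q : ↥S'), IsGoodModule p S' (ad0Rep p (rbarOf ρbar)) →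
      (q.1 : ℕ) ∉ S → p ∣ (q.1 : ℕ) - 1 →
      (∀ P : ValuationSubring (AlgebraicClosure ℚ), P.LiesOverPrime (q.1 : ℕ) →
        ∀ φ : Γℚ, P.IsFrobeniusAt φ (q.1 : ℕ) → ∃ α β : ResidueField 𝒪, α ≠ β ∧
          LinearMap.charpoly (ρbar.ρ φ) = (Polynomial.X - Polynomial.C α) *
            (Polynomial.X - Polynomial.C β)) →
      finrank (ZMod p) (locH1 S' (ad0Rep p (rbarOf ρbar)) (Sum.inr q)) ≤
        finrank (ZMod p) (locH0 S' (ad0Rep p (rbarOf ρbar)) (Sum.inr q)) +
          finrank (ZMod p) (ResidueField 𝒪))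
    -- `H⁰(G_ℚ, ad⁰) = 0`
    (hH0 : finrank (ZMod p) (ad0Rep p (rbarOf ρbar)).ρ.invariants = 0)
    -- vanishing of the dual Selmer group (DualVanish)
    (hDual : ∀ (Q' : Finset Nat.Primes)
      (L : ∀ v : extArithIndex (toPrimes Smin ∪ Q'), Submodule (ZMod p)
        (H1 (Rep.res (extArithLoc (toPrimes Smin ∪ Q') v) (ad0Rep p (rbarOf ρbar))))),
      (∀ q : ↥(toPrimes Smin ∪ Q'), q.1 ∈ Q' →
        locH1 (toPrimes Smin ∪ Q') (ad0Rep p (rbarOf ρbar)) (Sum.inr q) ≤ L (Sum.inr q)) →
      (∀ x ∈ continuousH1S (toPrimes Smin) (tateDual p (ad0Rep p (rbarOf ρbar))),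
        (∀ q ∈ Q', (locRes (fun q : Nat.Primes => primeLocalToGlobal q)
          (tateDual p (ad0Rep p (rbarOf ρbar))) q).hom x = 0) → x = 0) →
      Sel (toPrimes Smin ∪ Q') (tateDual p (ad0Rep p (rbarOf ρbar)))
        (dualCond B.pairingAt (toPrimes Smin ∪ Q') (ad0Rep p (rbarOf ρbar)) L) = ⊥)
    -- bookkeeping (SumBound)
    (hSum : ∀ (S' Q' : Finset Nat.Primes) (hpS : pPrime p ∈ S')
      (L : ∀ v : extArithIndex S', Submodule (ZMod p)
        (H1 (Rep.res (extArithLoc S' v) (ad0Rep p (rbarOf ρbar))))) (d : ℕ),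
      Q' ⊆ S' → pPrime p ∉ Q' →
      (∀ u, finrank (ZMod p) (L (Sum.inl u)) + d ≤
        finrank (ZMod p) (locH0 S' (ad0Rep p (rbarOf ρbar)) (Sum.inl u))) →
      finrank (ZMod p) (L (Sum.inr ⟨pPrime p, hpS⟩)) ≤
        finrank (ZMod p) (locH0 S' (ad0Rep p (rbarOf ρbar)) (Sum.inr ⟨pPrime p, hpS⟩)) + d →
      (∀ q : ↥S', q.1 ∈ Q' → finrank (ZMod p) (L (Sum.inr q)) ≤
        finrank (ZMod p) (locH0 S' (ad0Rep p (rbarOf ρbar)) (Sum.inr q)) + d) →
      (∀ q : ↥S', q.1 ∉ Q' → q.1 ≠ pPrime p → finrank (ZMod p) (L (Sum.inr q)) ≤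
        finrank (ZMod p) (locH0 S' (ad0Rep p (rbarOf ρbar)) (Sum.inr q))) →
      ∑ v, finrank (ZMod p) (L v) ≤
        ∑ v, finrank (ZMod p) (locH0 S' (ad0Rep p (rbarOf ρbar)) v) + Q'.card * d)
    -- selection of Taylor–Wiles primes (KILL + EXIST + KillPad)
    (hselect : ∃ r : ℕ, ∀ n : ℕ, ∃ qv : Fin r → ℕ, IsTWFamily ρbar p S n r qv ∧
      ∀ x ∈ continuousH1S (toPrimes Smin) (tateDual p (ad0Rep p (rbarOf ρbar))),
        (∀ q ∈ toPrimes (Finset.univ.image qv),
          (locRes (fun q : Nat.Primes => primeLocalToGlobal q)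
            (tateDual p (ad0Rep p (rbarOf ρbar))) q).hom x = 0) → x = 0) :
    SelmerCount p ρbar S cond := by
  classical
  obtain ⟨r, hr⟩ := hselect
  refine ⟨r, fun n => ?_⟩
  obtain ⟨qv, hTWfam, hkill⟩ := hr n
  refine ⟨qv, hTWfam, fun DQ => ?_⟩
  obtain ⟨hinj, hprime, hfrob⟩ := hTWfam
  have hrbar : GaloisFactorsThroughFiniteLevel (rbarOf ρbar) := hrbarOf ρbar
  have hp2 : p ≠ 2 := hyp.hp2
  have hpS₀ : pPrime p ∈ toPrimes Smin := pPrime_mem_toPrimes hyp.hpSmin
  have hpS' : pPrime p ∈ toPrimes Smin ∪ toPrimes (Finset.univ.image qv) :=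
    Finset.mem_union_left _ hpS₀
  -- primes of `Q` are not in `S`, hence not in `Smin`
  have hQS : ∀ q ∈ toPrimes (Finset.univ.image qv), (q : ℕ) ∉ S := by
    intro q hq
    rw [mem_toPrimes, Finset.mem_image] at hq
    obtain ⟨i, -, hi⟩ := hq
    rw [← hi]
    exact (hprime i).2.1
  have hQS₀ : ∀ q ∈ toPrimes (Finset.univ.image qv), q ∉ toPrimes Smin := fun q hq hq0 =>
    hQS q hq (hyp.hSmin (mem_toPrimes.mp hq0))
  have hpQ' : pPrime p ∉ toPrimes (Finset.univ.image qv) := fun h => hQS₀ _ h hpS₀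
  -- the module is good for `S'`
  have hgood : IsGoodModule p (toPrimes Smin ∪ toPrimes (Finset.univ.image qv))
      (ad0Rep p (rbarOf ρbar)) :=
    isGoodModule_ad0Rep p (rbarOf ρbar) hrbar _ fun q hq A hA g hg =>
      hyp.rbarOf_inertia_eq_one q (fun h => hq (Finset.mem_union_left _ h)) A hA g hg
  -- the local conditions
  have hL_inr : ∀ q : ↥(toPrimes Smin ∪ toPrimes (Finset.univ.image qv)),
      localConds p (toPrimes Smin) (toPrimes Smin ∪ toPrimes (Finset.univ.image qv))
        (ad0Rep p (rbarOf ρbar)) Lq (Sum.inr q) =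
      if q.1 ∈ toPrimes Smin then Lq q.1 else
        locH1 (toPrimes Smin ∪ toPrimes (Finset.univ.image qv)) (ad0Rep p (rbarOf ρbar))
          (Sum.inr q) := fun q => rfl
  have hL : ∀ v, localConds p (toPrimes Smin) (toPrimes Smin ∪ toPrimes (Finset.univ.image qv))
        (ad0Rep p (rbarOf ρbar)) Lq v ≤
      locH1 (toPrimes Smin ∪ toPrimes (Finset.univ.image qv)) (ad0Rep p (rbarOf ρbar)) v := by
    rintro (u | q)
    · exact bot_le
    · rw [hL_inr]
      split_ifs with h
      · exact hLq q.1 h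
      · exact le_rfl
  -- the count of cocycles
  have hcard : Nat.card (ResidueField 𝒪) ^ r = p ^ (finrank (ZMod p) (ResidueField 𝒪) * r) :=
    natCard_pow_eq p _ r
  refine card_algHom_le_of_cocycleCount DQ (hEQ _) (hBC _ DQ) (rbarOf ρbar) hrbar
    (equivRbarOf ρbar) (Nat.card (ResidueField 𝒪) ^ r) ?_
  intro T hT hpair hnz
  rw [hcard]
  refine cocycleCount_fixed B hp2 (rbarOf ρbar) hrbar
    (toPrimes Smin ∪ toPrimes (Finset.univ.image qv)) hpS' hgood
    (fun c => cond (Finset.univ.image qv) (c.lift hrbar)) (htr _) ?_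
    (localConds p (toPrimes Smin) (toPrimes Smin ∪ toPrimes (Finset.univ.image qv))
        (ad0Rep p (rbarOf ρbar)) Lq) hL ?_ hH0 ?_
    (finrank (ZMod p) (ResidueField 𝒪) * r) ?_ T hT hpair hnz
  · -- unramified outside `S'`
    intro c hc q hq
    exact hur _ c hc q hq
  · -- membership of the localisations
    rintro c hc (u | q)
    · have := B.arch hp2 (toPrimes Smin ∪ toPrimes (Finset.univ.image qv))
        (ad0Rep p (rbarOf ρbar)) u
      have h0 : (locRes (extArithLoc (toPrimes Smin ∪ toPrimes (Finset.univ.image qv)))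
          (ad0Rep p (rbarOf ρbar)) (Sum.inl u)).hom
          (c.toClass (p := p) (htr _ c hc)) = 0 := Subsingleton.elim _ _
      rw [h0]
      exact Submodule.zero_mem _
    · rw [hL_inr]
      split_ifs with h
      · exact hLqmem _ c hc q.1 h
      · exact c.locRes_toClass_mem_locH1 hrbar _ (htr _ c hc) (Sum.inr q)
  · -- the dual Selmer group vanishes
    have := hDual (toPrimes (Finset.univ.image qv))
      (localConds p (toPrimes Smin) (toPrimes Smin ∪ toPrimes (Finset.univ.image qv))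
        (ad0Rep p (rbarOf ρbar)) Lq) (fun q hq => by
      rw [hL_inr, if_neg (hQS₀ q.1 hq)]) hkill
    rw [this]
    exact finrank_bot _ _
  · -- the local sum
    have hcardQ : (toPrimes (Finset.univ.image qv)).card = r := by
      rw [card_toPrimes (fun q hq => by
        rw [Finset.mem_image] at hq
        obtain ⟨i, -, hi⟩ := hq
        exact hi ▸ (hprime i).1), Finset.card_image_of_injective _ hinj]
      simp
    have := hSum (toPrimes Smin ∪ toPrimes (Finset.univ.image qv))
      (toPrimes (Finset.univ.image qv)) hpS'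
      (localConds p (toPrimes Smin) (toPrimes Smin ∪ toPrimes (Finset.univ.image qv))
        (ad0Rep p (rbarOf ρbar)) Lq) (finrank (ZMod p) (ResidueField 𝒪))
      Finset.subset_union_right hpQ' ?_ ?_ ?_ ?_
    · rw [hcardQ, mul_comm] at this
      exact this
    · intro u
      have h0 : localConds p (toPrimes Smin) (toPrimes Smin ∪ toPrimes (Finset.univ.image qv))
        (ad0Rep p (rbarOf ρbar)) Lq (Sum.inl u) = ⊥ := rfl
      rw [h0, finrank_bot, zero_add]
      exact hinf _ u
    · rw [hL_inr, if_pos hpS₀]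
      exact hLp
    · intro q hq
      rw [hL_inr, if_neg (hQS₀ q.1 hq)]
      have hq' : (q.1 : ℕ) ∈ Finset.univ.image qv := mem_toPrimes.mp hq
      rw [Finset.mem_image] at hq'
      obtain ⟨i, -, hi⟩ := hq'
      refine hTW _ q hgood (hQS q.1 hq) ?_ ?_
      · rw [← hi]
        exact (dvd_pow_self p (Nat.succ_ne_zero n)).trans (hprime i).2.2
      · intro P hP φ hφ
        rw [← hi] at hP hφ
        exact hfrob i P hP φ hφ
    · intro q hq hqp
      have hq0 : q.1 ∈ toPrimes Smin := by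
        rcases Finset.mem_union.mp q.2 with h | h
        · exact h
        · exact absurd h hq
      rw [hL_inr, if_pos hq0]
      exact hLSmin q.1 hq0 hqp

end Fermat.Agent.S56x.Assembly

end
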