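import Fermat.Agent.S56x.Local.InfinityAd0
import Fermat.Agent.S56x.Assembly.Basics

/-!
# P-S56 (C5): the archimedean input `hinf` of `Assembly/Final.selmerCount_of_inputs` (helper86)

Glue of `Local/InfinityOdd.det_complexConjugation` + `Local/InfinityAd0.finrank_locH0_arch` with
the matrix model `Basics.rbarOf ρbar` of the residual representation:

* `det_rbarOf_complexConjugation` : `det (rbarOf ρbar c) = -1` from the hypothesis `hdet`;
* `finrank_locH0_arch_rbarOf` : `dim_{𝔽_p} H⁰(G_∞, ad⁰ ρbar) = [k : 𝔽_p]`;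
* `hinf_of_hdet`, `Hyp.hinf` : the hypothesis `hinf` of `selmerCount_of_inputs`, verbatim
  (for any `𝔽_p`-algebra structure on the coefficient field, in particular `algZMod p k`).
-/

set_option autoImplicit false

open Module

namespace Fermat.Agent.S56x.Assembly

open Fermat.Agent.S56x Fermat.Agent.S56x.GW Fermat.Agent.S56x.Dict Fermat.Agent.S56x.Basics
  Fermat.Agent.S56x.Local.InfinityLocal

local notation "Γℚ" => (AlgebraicClosure ℚ ≃ₐ[ℚ] AlgebraicClosure ℚ)
local notation "M₂" => Matrix (Fin 2) (Fin 2)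

section General

variable {k : Type} [Field k] {p : ℕ} [Fact p.Prime]

/-- **Oddness of the matrix model**: `det (rbarOf ρbar c) = -1`. -/
theorem det_rbarOf_complexConjugation (ρbar : ResidualGaloisRep k)
    (hdet : (GaloisRepAdic.ofResidualGaloisRep ρbar).DetIsCyclotomic p) :
    (rbarOf ρbar complexConjugation).det = -1 := by
  rw [det_rbarOf]
  exact det_complexConjugation p ρbar hdet

variable [Algebra (ZMod p) k]

/-- `dim_{𝔽_p} H⁰(G_∞, ad⁰ ρbar) = [k : 𝔽_p]` for the matrix model of `ρbar`. -/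
theorem finrank_locH0_arch_rbarOf (hp2 : p ≠ 2) (ρbar : ResidualGaloisRep k)
    (hdet : (GaloisRepAdic.ofResidualGaloisRep ρbar).DetIsCyclotomic p)
    (S' : Finset Nat.Primes) (u : Unit) :
    finrank (ZMod p) (locH0 S' (ad0Rep p (rbarOf ρbar)) (Sum.inl u)) = finrank (ZMod p) k :=
  finrank_locH0_arch hp2 (rbarOf ρbar) (det_rbarOf_complexConjugation ρbar hdet) S' u

/-- The hypothesis `hinf` of `Assembly/Final.selmerCount_of_inputs`. -/
theorem hinf_of_hdet (hp2 : p ≠ 2) (ρbar : ResidualGaloisRep k)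
    (hdet : (GaloisRepAdic.ofResidualGaloisRep ρbar).DetIsCyclotomic p)
    (S' : Finset Nat.Primes) (u : Unit) :
    finrank (ZMod p) k ≤ finrank (ZMod p) (locH0 S' (ad0Rep p (rbarOf ρbar)) (Sum.inl u)) :=
  (finrank_locH0_arch_rbarOf hp2 ρbar hdet S' u).ge

end General

section OfHyp

variable {𝒪 : Type} [CommRing 𝒪] [IsLocalRing 𝒪] {p : ℕ} [Fact p.Prime]
  [Algebra (ZMod p) (IsLocalRing.ResidueField 𝒪)]
  {ρbar : ResidualGaloisRep (IsLocalRing.ResidueField 𝒪)} {S Smin : Finset ℕ}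

/-- The hypothesis `hinf` of `Assembly/Final.selmerCount_of_inputs` from the bundled frozen
hypotheses. -/
theorem _root_.Fermat.Agent.S56x.Hyp.hinf (H : Hyp (𝒪 := 𝒪) p ρbar S Smin)
    (S' : Finset Nat.Primes) (u : Unit) :
    finrank (ZMod p) (IsLocalRing.ResidueField 𝒪) ≤
      finrank (ZMod p) (locH0 S' (ad0Rep p (rbarOf ρbar)) (Sum.inl u)) :=
  hinf_of_hdet H.hp2 ρbar H.hdet S' u

end OfHyp

end Fermat.Agent.S56x.Assembly
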