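/-
P-S56, block (C) final assembly leaf (helper34, statement of helper72): vanishing of the dual
Selmer group after adding Taylor-Wiles primes.

If the local conditions `L` at the primes of `Q` contain ALL continuous classes, then the dual
conditions at these primes are zero (local Tate duality, `GWPackage.nondeg_right`), so a class of the
dual Selmer group for `S₀ ∪ Q` is locally trivial at `Q`, hence unramified outside `S₀`
(`MonoStatement`), hence zero as soon as the primes of `Q` kill `H¹(G_{S₀}, M^*(1))`.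
-/
import Fermat.Agent.S56x.GW.LocalFields

set_option autoImplicit false
set_option linter.unusedSectionVars false

open CategoryTheory groupCohomology ExtCitation Module

namespace Fermat.Agent.S56x.Assembly

open Fermat.Agent.S56x.GW
open Fermat.Agent.Lib.CFT.Profinite Fermat.Agent.Lib.CFT.Profinite.Bridge

local notation "Qbar" => AlgebraicClosure ℚ
local notation "Γℚ" => (AlgebraicClosure ℚ ≃ₐ[ℚ] AlgebraicClosure ℚ)

variable {p : ℕ} [Fact p.Prime]

/-- A module which is discrete for the `S`-levels is good for `S`. -/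
theorem isGoodModule_of_isDiscrete {S : Finset Nat.Primes} {M : Rep (ZMod p) Γℚ}
    (hM : (levelsS S).IsDiscrete M) : IsGoodModule p S M := by
  refine ⟨fun m => ?_, fun q hq A hA g hg => ?_⟩
  · obtain ⟨_, ⟨F, hF, rfl⟩, h⟩ := hM m
    exact ⟨F, hF.1, h⟩
  · refine LinearMap.ext fun m => ?_
    obtain ⟨_, ⟨F, hF, rfl⟩, h⟩ := hM m
    exact h g (hF.2 q hq A hA hg)

/-- The Tate dual of a good module is good (`p ∈ S`). -/
theorem isGoodModule_tateDual {S : Finset Nat.Primes} {M : Rep.{0} (ZMod p) Γℚ}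
    [FiniteDimensional (ZMod p) M] (hM : IsGoodModule p S M) (hpS : pPrime p ∈ S) :
    IsGoodModule p S (tateDual p M) := by
  have : Finite M := Module.finite_of_finite (ZMod p)
  exact isGoodModule_of_isDiscrete (hM.isDiscrete_tateDual hpS)

/-- **Vanishing of the dual Selmer group.** -/
theorem sel_dual_eq_bot (B : GWPackage p) (hMono : MonoStatement p) (S₀ Q : Finset Nat.Primes)
    (hpS : pPrime p ∈ S₀) (M : Rep (ZMod p) Γℚ) [FiniteDimensional (ZMod p) M]
    (hM : IsGoodModule p S₀ M)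
    (L : ∀ v : extArithIndex (S₀ ∪ Q),
      Submodule (ZMod p) (H1 (Rep.res (extArithLoc (S₀ ∪ Q) v) M)))
    (hLQ : ∀ q : ↥(S₀ ∪ Q), q.1 ∈ Q → locH1 (S₀ ∪ Q) M (Sum.inr q) ≤ L (Sum.inr q))
    (hkill : ∀ x ∈ continuousH1S S₀ (tateDual p M),
      (∀ q ∈ Q, (locRes (fun q : Nat.Primes => primeLocalToGlobal q) (tateDual p M) q).hom x = 0) →
        x = 0) :
    Sel (S₀ ∪ Q) (tateDual p M) (dualCond B.pairingAt (S₀ ∪ Q) M L) = ⊥ := by
  rw [eq_bot_iff]
  intro x hx
  rw [Submodule.mem_bot]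
  obtain ⟨hxS, hxsel⟩ := Submodule.mem_inf.1 hx
  rw [mem_selmer_iff] at hxsel
  -- `x` is locally trivial at the primes of `Q`
  have hloc : ∀ q ∈ Q,
      (locRes (fun q : Nat.Primes => primeLocalToGlobal q) (tateDual p M) q).hom x = 0 := by
    intro q hq
    have hqS : q ∈ S₀ ∪ Q := Finset.mem_union_right _ hq
    have h1 := hxsel (Sum.inr ⟨q, hqS⟩)
    obtain ⟨horth, hcont⟩ := Submodule.mem_inf.1 h1
    refine B.nondeg_right S₀ q M hM _ hcont fun x' hx' => ?_
    exact (mem_orthogonal_iff _ _ _).1 horth x' (hLQ ⟨q, hqS⟩ hq hx')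
  -- hence unramified outside `S₀`
  have hx₀ : x ∈ continuousH1S S₀ (tateDual p M) :=
    hMono S₀ Q (tateDual p M) (isGoodModule_tateDual hM hpS) x hxS hloc
  exact hkill x hx₀ hloc

/-- The dual Selmer group has dimension zero. -/
theorem finrank_sel_dual_eq_zero (B : GWPackage p) (hMono : MonoStatement p)
    (S₀ Q : Finset Nat.Primes) (hpS : pPrime p ∈ S₀) (M : Rep (ZMod p) Γℚ)
    [FiniteDimensional (ZMod p) M] (hM : IsGoodModule p S₀ M)
    (L : ∀ v : extArithIndex (S₀ ∪ Q),
      Submodule (ZMod p) (H1 (Rep.res (extArithLoc (S₀ ∪ Q) v) M)))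
    (hLQ : ∀ q : ↥(S₀ ∪ Q), q.1 ∈ Q → locH1 (S₀ ∪ Q) M (Sum.inr q) ≤ L (Sum.inr q))
    (hkill : ∀ x ∈ continuousH1S S₀ (tateDual p M),
      (∀ q ∈ Q, (locRes (fun q : Nat.Primes => primeLocalToGlobal q) (tateDual p M) q).hom x = 0) →
        x = 0) :
    finrank (ZMod p) (Sel (S₀ ∪ Q) (tateDual p M) (dualCond B.pairingAt (S₀ ∪ Q) M L)) = 0 := by
  rw [sel_dual_eq_bot B hMono S₀ Q hpS M hM L hLQ hkill, finrank_bot]

end Fermat.Agent.S56x.Assembly
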