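import Mathlib
import Fermat.Agent.S56x.Kill.Family
import Fermat.Agent.S56x.Assembly.DualVanish
import Fermat.Agent.S56x.Assembly.Basics

/-!
# P-S56 (C5): the selection hypothesis `hselect` of `Assembly/Final.selmerCount_of_inputs`

From the bundled frozen hypotheses `Hyp`, the Greenberg–Wiles package `B` (only `finite_H1S` is
used) and the group theoretic statement (GT): there is `r` such that for every `n` there is a
Taylor–Wiles family `qv : Fin r → ℕ` of level `n` killing `H¹(G_{Smin}, ad⁰ρbar(1))`.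
Also the hypothesis `hDual` of `selmerCount_of_inputs` from `MonoStatement` (`DualVanish`).
-/

set_option autoImplicit false
set_option linter.unusedSectionVars false
set_option linter.style.haveILetI false

open CategoryTheory groupCohomology ExtCitation Module IsLocalRing

noncomputable section

namespace Fermat.Agent.S56x.Assembly

open Fermat.Agent.S56x Fermat.Agent.S56x.GW Fermat.Agent.S56x.Dict Fermat.Agent.S56x.Basics
  Fermat.Agent.S53 Fermat.Agent.S56x.Group.EndAdapter Fermat.Agent.S56x.Group.EndKill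

local notation "Γℚ" => (AlgebraicClosure ℚ ≃ₐ[ℚ] AlgebraicClosure ℚ)

variable {𝒪 : Type} [CommRing 𝒪] [IsLocalRing 𝒪] [Finite (ResidueField 𝒪)]
variable (p : ℕ) [Fact p.Prime] [CharP (ResidueField 𝒪) p]
variable (ρbar : ResidualGaloisRep (ResidueField 𝒪)) (S Smin : Finset ℕ)

/-- The `𝔽_p`-algebra structure on the residue field (as in `Assembly/Final`). -/
local instance instAlgZModSel : Algebra (ZMod p) (ResidueField 𝒪) := algZMod p (ResidueField 𝒪)

local instance instFinZModSel : Module.Finite (ZMod p) (ResidueField 𝒪) := Module.Finite.of_finite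

/-- `ad⁰ ρbar` is a good module for `Smin`. -/
theorem isGoodModule_ad0Rep_Smin (hyp : Hyp (𝒪 := 𝒪) p ρbar S Smin) :
    IsGoodModule p (toPrimes Smin) (ad0Rep p (rbarOf ρbar)) :=
  isGoodModule_ad0Rep p (rbarOf ρbar) (hrbarOf ρbar) _ fun q hq A hA g hg =>
    hyp.rbarOf_inertia_eq_one q hq A hA g hg

/-- **The selection hypothesis `hselect`** of `selmerCount_of_inputs`. -/
theorem hselect_of_hyp (hyp : Hyp (𝒪 := 𝒪) p ρbar S Smin) (B : GWPackage p)
    (hGT : GTStatement (matRep (resBasis ρbar) ρbar.ρ)) :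
    ∃ r : ℕ, ∀ n : ℕ, ∃ qv : Fin r → ℕ, IsTWFamily ρbar p S n r qv ∧
      ∀ x ∈ continuousH1S (toPrimes Smin) (tateDual p (ad0Rep p (rbarOf ρbar))),
        (∀ q ∈ toPrimes (Finset.univ.image qv),
          (locRes (fun q : Nat.Primes => primeLocalToGlobal q)
            (tateDual p (ad0Rep p (rbarOf ρbar))) q).hom x = 0) → x = 0 := by
  have hpS₀ : pPrime p ∈ toPrimes Smin := pPrime_mem_toPrimes hyp.hpSmin
  have hgood := isGoodModule_ad0Rep_Smin p ρbar S Smin hyp
  have hfin : Module.Finite (ZMod p) (continuousH1S (toPrimes Smin)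
      (tateDual p (ad0Rep p (rbarOf ρbar)))) :=
    B.finite_H1S (toPrimes Smin) hpS₀ (tateDual p (ad0Rep p (rbarOf ρbar)))
      (isGoodModule_tateDual hgood hpS₀)
  refine ⟨finrank (ZMod p) (continuousH1S (toPrimes Smin)
    (tateDual p (ad0Rep p (rbarOf ρbar)))), fun n => ?_⟩
  obtain ⟨qv, h1, -, -, h4⟩ := Fermat.Agent.S56x.Kill.Family.exists_killing_family p hyp.hp2 ρbar
    hyp.habs hyp.hdet hyp.hsplit hyp.hTW hGT (chosenBasisRes ρbar) (toPrimes Smin) hfin S ∅ n
  exact ⟨qv, h1, h4⟩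

/-- **The hypothesis `hDual`** of `selmerCount_of_inputs` from `MonoStatement`. -/
theorem hDual_of_mono (hyp : Hyp (𝒪 := 𝒪) p ρbar S Smin) (B : GWPackage p)
    (hMono : MonoStatement p) (Q' : Finset Nat.Primes)
    (L : ∀ v : extArithIndex (toPrimes Smin ∪ Q'), Submodule (ZMod p)
      (H1 (Rep.res (extArithLoc (toPrimes Smin ∪ Q') v) (ad0Rep p (rbarOf ρbar)))))
    (hLQ : ∀ q : ↥(toPrimes Smin ∪ Q'), q.1 ∈ Q' →
      locH1 (toPrimes Smin ∪ Q') (ad0Rep p (rbarOf ρbar)) (Sum.inr q) ≤ L (Sum.inr q))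
    (hkill : ∀ x ∈ continuousH1S (toPrimes Smin) (tateDual p (ad0Rep p (rbarOf ρbar))),
      (∀ q ∈ Q', (locRes (fun q : Nat.Primes => primeLocalToGlobal q)
        (tateDual p (ad0Rep p (rbarOf ρbar))) q).hom x = 0) → x = 0) :
    Sel (toPrimes Smin ∪ Q') (tateDual p (ad0Rep p (rbarOf ρbar)))
      (dualCond B.pairingAt (toPrimes Smin ∪ Q') (ad0Rep p (rbarOf ρbar)) L) = ⊥ :=
  sel_dual_eq_bot B hMono (toPrimes Smin) Q' (pPrime_mem_toPrimes hyp.hpSmin)
    (ad0Rep p (rbarOf ρbar)) (isGoodModule_ad0Rep_Smin p ρbar S Smin hyp) L hLQ hkill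

end Fermat.Agent.S56x.Assembly
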