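import Mathlib
import Fermat.Agent.S56x.Assembly.SelectTW
import Fermat.Agent.S56x.Group.EndGT
import Fermat.Agent.S56x.Group.SylowTorus
import Fermat.Agent.S56x.GW.Mono

/-!
# P-S56 (C5): the selection hypothesis `hselect` and `hDual`, UNCONDITIONALLY

`(T)` (`Group/SylowTorus.tStatement`) + `Group/EndGT.gtStatement_of_T` give (GT) for `ρbar`, hence
`hselect` of `Assembly/Final.selmerCount_of_inputs` from `Hyp` and the package `B` alone; with
`GW/Mono.monoStatement` also `hDual`.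
-/

set_option autoImplicit false
set_option linter.unusedSectionVars false
set_option linter.style.haveILetI false

open CategoryTheory groupCohomology ExtCitation Module IsLocalRing

noncomputable section

namespace Fermat.Agent.S56x.Assembly

open Fermat.Agent.S56x Fermat.Agent.S56x.GW Fermat.Agent.S56x.Dict Fermat.Agent.S56x.Basics
  Fermat.Agent.S53 Fermat.Agent.S56x.Group Fermat.Agent.S56x.Group.EndAdapter
  Fermat.Agent.S56x.Group.EndKill

local notation "Γℚ" => (AlgebraicClosure ℚ ≃ₐ[ℚ] AlgebraicClosure ℚ)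

variable {𝒪 : Type} [CommRing 𝒪] [IsLocalRing 𝒪] [Finite (ResidueField 𝒪)]
variable (p : ℕ) [Fact p.Prime] [CharP (ResidueField 𝒪) p]
variable (ρbar : ResidualGaloisRep (ResidueField 𝒪)) (S Smin : Finset ℕ)

/-- The `𝔽_p`-algebra structure on the residue field (as in `Assembly/Final`). -/
local instance instAlgZModSelF : Algebra (ZMod p) (ResidueField 𝒪) := algZMod p (ResidueField 𝒪)

/-- **(GT) for `ρbar`**, from the frozen hypotheses. -/
theorem gtStatement_of_hyp (hyp : Hyp (𝒪 := 𝒪) p ρbar S Smin)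
    (b : Module.Basis (Fin 2) (ResidueField 𝒪) ρbar.V) :
    GTStatement (matRep b ρbar.ρ) :=
  Fermat.Agent.S56x.Group.EndGT.gtStatement_of_T p hyp.hp2 ρbar hyp.habs hyp.hdet hyp.hTW b
    fun g₀ => tStatement hyp.hp2
      (conjRep_injective g₀ (QuotientGroup.kerLift_injective (matRep b ρbar.ρ)))

/-- **`hselect`, unconditional.** -/
theorem hselect_of_hyp_final (hyp : Hyp (𝒪 := 𝒪) p ρbar S Smin) (B : GWPackage p) :
    ∃ r : ℕ, ∀ n : ℕ, ∃ qv : Fin r → ℕ, IsTWFamily ρbar p S n r qv ∧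
      ∀ x ∈ continuousH1S (toPrimes Smin) (tateDual p (ad0Rep p (rbarOf ρbar))),
        (∀ q ∈ toPrimes (Finset.univ.image qv),
          (locRes (fun q : Nat.Primes => primeLocalToGlobal q)
            (tateDual p (ad0Rep p (rbarOf ρbar))) q).hom x = 0) → x = 0 :=
  hselect_of_hyp p ρbar S Smin hyp B (gtStatement_of_hyp p ρbar S Smin hyp (resBasis ρbar))

/-- **`hDual`, unconditional.** -/
theorem hDual_of_hyp (hyp : Hyp (𝒪 := 𝒪) p ρbar S Smin) (B : GWPackage p)
    (Q' : Finset Nat.Primes)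
    (L : ∀ v : extArithIndex (toPrimes Smin ∪ Q'), Submodule (ZMod p)
      (H1 (Rep.res (extArithLoc (toPrimes Smin ∪ Q') v) (ad0Rep p (rbarOf ρbar)))))
    (hLQ : ∀ q : ↥(toPrimes Smin ∪ Q'), q.1 ∈ Q' →
      locH1 (toPrimes Smin ∪ Q') (ad0Rep p (rbarOf ρbar)) (Sum.inr q) ≤ L (Sum.inr q))
    (hkill : ∀ x ∈ continuousH1S (toPrimes Smin) (tateDual p (ad0Rep p (rbarOf ρbar))),
      (∀ q ∈ Q', (locRes (fun q : Nat.Primes => primeLocalToGlobal q)
        (tateDual p (ad0Rep p (rbarOf ρbar))) q).hom x = 0) → x = 0) :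
    Sel (toPrimes Smin ∪ Q') (tateDual p (ad0Rep p (rbarOf ρbar)))
      (dualCond B.pairingAt (toPrimes Smin ∪ Q') (ad0Rep p (rbarOf ρbar)) L) = ⊥ :=
  hDual_of_mono p ρbar S Smin hyp B (monoStatement p) Q' L hLQ hkill

end Fermat.Agent.S56x.Assembly
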