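/-
helper89.  P-S56, block (C) assembly: pure bookkeeping over `extArithIndex S' = Unit ⊕ ↥S'`.

`sum_finrank_le`: if the local conditions `L v` satisfy
* `dim L_∞ + d ≤ h⁰_∞` at the archimedean place,
* `dim L_p ≤ h⁰_p + d` at `p`,
* `dim L_q ≤ h⁰_q + d` at the primes `q ∈ Q` (`p ∉ Q`),
* `dim L_q ≤ h⁰_q` at the other primes of `S'`,
then `∑_v dim L_v ≤ ∑_v h⁰_v + #Q * d`.
-/
import Mathlib
import Fermat.Agent.S56x.GW.Interface

set_option autoImplicit false

open CategoryTheory groupCohomology ExtCitation Module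

namespace Fermat.Agent.S56x.Assembly

open Fermat.Agent.S56x.GW

local notation "Γℚ" => (AlgebraicClosure ℚ ≃ₐ[ℚ] AlgebraicClosure ℚ)

/-- The numerical core: sums over `Unit ⊕ ↥S'`. -/
theorem sum_le_sum_add_card_mul (S' Q : Finset Nat.Primes) (hQ : Q ⊆ S') (p₀ : Nat.Primes)
    (hpS : p₀ ∈ S') (hpQ : p₀ ∉ Q) (a b : Unit ⊕ ↥S' → ℕ) (d : ℕ)
    (hinf : ∀ u, a (Sum.inl u) + d ≤ b (Sum.inl u))
    (hp : a (Sum.inr ⟨p₀, hpS⟩) ≤ b (Sum.inr ⟨p₀, hpS⟩) + d)
    (hQb : ∀ q : ↥S', q.1 ∈ Q → a (Sum.inr q) ≤ b (Sum.inr q) + d)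
    (hrest : ∀ q : ↥S', q.1 ∉ Q → q.1 ≠ p₀ → a (Sum.inr q) ≤ b (Sum.inr q)) :
    ∑ v, a v ≤ ∑ v, b v + Q.card * d := by
  classical
  rw [Fintype.sum_sum_type, Fintype.sum_sum_type]
  simp only [Finset.univ_unique, Finset.sum_singleton]
  -- the sum over the finite primes
  have h1 : ∀ q : ↥S', a (Sum.inr q) ≤
      b (Sum.inr q) + ((if q.1 = p₀ then d else 0) + (if q.1 ∈ Q then d else 0)) := by
    intro q
    by_cases hq : q.1 = p₀
    · have hq' : q = ⟨p₀, hpS⟩ := Subtype.ext hq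
      subst hq'
      rw [if_pos rfl, if_neg hpQ, add_zero]
      exact hp
    · by_cases hqQ : q.1 ∈ Q
      · rw [if_neg hq, if_pos hqQ, zero_add]
        exact hQb q hqQ
      · rw [if_neg hq, if_neg hqQ, add_zero, add_zero]
        exact hrest q hqQ hq
  have h2 : ∑ q : ↥S', (if q.1 = p₀ then d else 0) = d := by
    rw [Finset.sum_eq_single (⟨p₀, hpS⟩ : ↥S')]
    · rw [if_pos rfl]
    · intro q _ hq
      rw [if_neg]
      intro h
      exact hq (Subtype.ext h)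
    · intro h
      exact absurd (Finset.mem_univ _) h
  have h3 : ∑ q : ↥S', (if q.1 ∈ Q then d else 0) = Q.card * d := by
    rw [← Finset.sum_filter, Finset.sum_const, smul_eq_mul]
    congr 1
    apply Finset.card_bij (fun (q : ↥S') _ => q.1)
    · intro q hq
      exact (Finset.mem_filter.mp hq).2
    · intro q₁ _ q₂ _ h
      exact Subtype.ext h
    · intro q hq
      exact ⟨⟨q, hQ hq⟩, Finset.mem_filter.mpr ⟨Finset.mem_univ _, hq⟩, rfl⟩
  have h4 : ∑ q : ↥S', a (Sum.inr q) ≤ ∑ q : ↥S', b (Sum.inr q) + (d + Q.card * d) := by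
    calc ∑ q : ↥S', a (Sum.inr q)
        ≤ ∑ q : ↥S', (b (Sum.inr q) +
            ((if q.1 = p₀ then d else 0) + (if q.1 ∈ Q then d else 0))) :=
          Finset.sum_le_sum fun q _ => h1 q
      _ = ∑ q : ↥S', b (Sum.inr q) + (d + Q.card * d) := by
          rw [Finset.sum_add_distrib, Finset.sum_add_distrib, h2, h3]
  have h5 : a (Sum.inl default) + d ≤ b (Sum.inl default) := hinf default
  clear h1 h2 h3
  omega

variable {p : ℕ} [Fact p.Prime]

/-- **(C5) bookkeeping**: the sum of the dimensions of the local conditions against the sum of the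
local `h⁰`. -/
theorem sum_finrank_le (S' : Finset Nat.Primes) (M : Rep (ZMod p) Γℚ)
    (L : ∀ v : extArithIndex S', Submodule (ZMod p) (H1 (Rep.res (extArithLoc S' v) M)))
    (d : ℕ) (Q : Finset Nat.Primes) (hQ : Q ⊆ S') (hpS : pPrime p ∈ S') (hpQ : pPrime p ∉ Q)
    (hinf : ∀ u, finrank (ZMod p) (L (Sum.inl u)) + d ≤
      finrank (ZMod p) (locH0 S' M (Sum.inl u)))
    (hp : finrank (ZMod p) (L (Sum.inr ⟨pPrime p, hpS⟩)) ≤
      finrank (ZMod p) (locH0 S' M (Sum.inr ⟨pPrime p, hpS⟩)) + d)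
    (hQb : ∀ q : ↥S', q.1 ∈ Q → finrank (ZMod p) (L (Sum.inr q)) ≤
      finrank (ZMod p) (locH0 S' M (Sum.inr q)) + d)
    (hrest : ∀ q : ↥S', q.1 ∉ Q → q.1 ≠ pPrime p → finrank (ZMod p) (L (Sum.inr q)) ≤
      finrank (ZMod p) (locH0 S' M (Sum.inr q))) :
    ∑ v, finrank (ZMod p) (L v) ≤ ∑ v, finrank (ZMod p) (locH0 S' M v) + Q.card * d :=
  sum_le_sum_add_card_mul S' Q hQ (pPrime p) hpS hpQ
    (fun v => finrank (ZMod p) (L v)) (fun v => finrank (ZMod p) (locH0 S' M v)) d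
    hinf hp hQb hrest

end Fermat.Agent.S56x.Assembly
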