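import Mathlib
import Fermat.Agent.S56x.Assembly.Final
import Fermat.Agent.S56x.Assembly.InfGlue
import Fermat.Agent.S56x.Assembly.SumBound
import Fermat.Agent.S56x.Assembly.SelectTWFinal
import Fermat.Agent.S56x.Local.TWPrimeCount
import Fermat.Agent.S56x.Local.GlobalH0Rep
import Fermat.Agent.S56x.Dict.BaseChange

/-!
# P-S56 (C5): the inputs of `Assembly/Final.selmerCount_of_inputs`, wired to the landed leaves

One lemma per hypothesis of `selmerCount_of_inputs`, in VERBATIM shape, from the bundled frozen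
hypotheses `hyp : Hyp p ρbar S Smin` and the Greenberg–Wiles package `B`:

* condition independent: `hTW_of_hyp`, `hH0_of_hyp`, `hSum_of`, (`Hyp.hinf` is in `InfGlue`,
  `hselect_of_hyp_final`, `hDual_of_hyp` in `SelectTWFinal`);
* for `cond = condSO 𝒪 p Smin` and `cond = condFlat 𝒪 p Smin`: `hEQ_*`, `hBC_*`, `htr_*`, `hur_*`;
* `selmerCount_condSO_of_local`, `selmerCount_condFlat_of_local`: `SelmerCount` for the two
  conditions with everything discharged except the data `Lq` of local conditions at the primes of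
  `Smin` (four statements: `hLq`, `hLqmem`, `hLp`, `hLSmin`).
-/

set_option autoImplicit false
set_option linter.style.haveILetI false
set_option linter.unusedSectionVars false

open CategoryTheory groupCohomology ExtCitation Module IsLocalRing

noncomputable section

namespace Fermat.Agent.S56x.Assembly

open Fermat.Agent.S56x Fermat.Agent.S56x.GW Fermat.Agent.S56x.Dict Fermat.Agent.S56x.Basics
  Fermat.Agent.S53

local notation "Γℚ" => (AlgebraicClosure ℚ ≃ₐ[ℚ] AlgebraicClosure ℚ)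
local notation "M₂" => Matrix (Fin 2) (Fin 2)

variable {𝒪 : Type} [CommRing 𝒪] [IsDomain 𝒪] [IsDiscreteValuationRing 𝒪]
  [IsAdicComplete (maximalIdeal 𝒪) 𝒪] [Finite (ResidueField 𝒪)]
variable (p : ℕ) [Fact p.Prime] [CharP (ResidueField 𝒪) p]
variable (ρbar : ResidualGaloisRep (ResidueField 𝒪)) (S Smin : Finset ℕ)

attribute [local instance] dualNumberAlgebra

/-- The `𝔽_p`-algebra structure on the residue field (as in `Assembly/Final`). -/
local instance instAlgZModInp : Algebra (ZMod p) (ResidueField 𝒪) := algZMod p (ResidueField 𝒪)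

local instance instFinZModInp : Module.Finite (ZMod p) (ResidueField 𝒪) := Module.Finite.of_finite

/-! ### Condition independent inputs -/

/-- `hTW` of `selmerCount_of_inputs`. -/
theorem hTW_of_hyp (hyp : Hyp p ρbar S Smin) (B : GWPackage p)
    (S' : Finset Nat.Primes) (q : ↥S') (hM : IsGoodModule p S' (ad0Rep p (rbarOf ρbar)))
    (hqS : (q.1 : ℕ) ∉ S) (hpq : p ∣ (q.1 : ℕ) - 1)
    (h : ∀ P : ValuationSubring (AlgebraicClosure ℚ), P.LiesOverPrime (q.1 : ℕ) →
      ∀ φ : Γℚ, P.IsFrobeniusAt φ (q.1 : ℕ) → ∃ α β : ResidueField 𝒪, α ≠ β ∧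
        LinearMap.charpoly (ρbar.ρ φ) = (Polynomial.X - Polynomial.C α) *
          (Polynomial.X - Polynomial.C β)) :
    finrank (ZMod p) (locH1 S' (ad0Rep p (rbarOf ρbar)) (Sum.inr q)) ≤
      finrank (ZMod p) (locH0 S' (ad0Rep p (rbarOf ρbar)) (Sum.inr q)) +
        finrank (ZMod p) (ResidueField 𝒪) := by
  have hqp : q.1 ≠ pPrime p := fun hq => hqS (by
    rw [hq]
    exact hyp.hSmin hyp.hpSmin)
  exact Fermat.Agent.S56x.Local.TWPrimeCount.finrank_locH1_le_of_residual p B S' q hqp ρbar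
    (chosenBasisRes ρbar) hM h hpq

/-- `hH0` of `selmerCount_of_inputs`. -/
theorem hH0_of_hyp (hyp : Hyp p ρbar S Smin) :
    finrank (ZMod p) (ad0Rep p (rbarOf ρbar)).ρ.invariants = 0 :=
  Fermat.Agent.S56x.Local.GlobalH0.finrank_invariants_ad0Rep_of_absIrr p hyp.hp2 ρbar
    (rbarOf ρbar) (hrbarOf ρbar) (equivRbarOf ρbar) hyp.habs

/-- `hSum` of `selmerCount_of_inputs`. -/
theorem hSum_of (S' Q' : Finset Nat.Primes) (hpS : pPrime p ∈ S')
    (L : ∀ v : extArithIndex S', Submodule (ZMod p)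
      (H1 (Rep.res (extArithLoc S' v) (ad0Rep p (rbarOf ρbar))))) (d : ℕ)
    (hQ : Q' ⊆ S') (hpQ : pPrime p ∉ Q')
    (hinf : ∀ u, finrank (ZMod p) (L (Sum.inl u)) + d ≤
      finrank (ZMod p) (locH0 S' (ad0Rep p (rbarOf ρbar)) (Sum.inl u)))
    (hp : finrank (ZMod p) (L (Sum.inr ⟨pPrime p, hpS⟩)) ≤
      finrank (ZMod p) (locH0 S' (ad0Rep p (rbarOf ρbar)) (Sum.inr ⟨pPrime p, hpS⟩)) + d)
    (hQb : ∀ q : ↥S', q.1 ∈ Q' → finrank (ZMod p) (L (Sum.inr q)) ≤
      finrank (ZMod p) (locH0 S' (ad0Rep p (rbarOf ρbar)) (Sum.inr q)) + d)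
    (hrest : ∀ q : ↥S', q.1 ∉ Q' → q.1 ≠ pPrime p → finrank (ZMod p) (L (Sum.inr q)) ≤
      finrank (ZMod p) (locH0 S' (ad0Rep p (rbarOf ρbar)) (Sum.inr q))) :
    ∑ v, finrank (ZMod p) (L v) ≤
      ∑ v, finrank (ZMod p) (locH0 S' (ad0Rep p (rbarOf ρbar)) v) + Q'.card * d :=
  sum_finrank_le S' (ad0Rep p (rbarOf ρbar)) L d Q' hQ hpS hpQ hinf hp hQb hrest

/-! ### The strict ordinary condition -/

theorem hEQ_condSO (Q : Finset ℕ) (ρ ρ' : GaloisRepAdic (DualNumber (ResidueField 𝒪)))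
    (h : ρ.IsEquiv ρ') (hP : condSO 𝒪 p Smin Q ρ) : condSO 𝒪 p Smin Q ρ' :=
  Fermat.Agent.S56x.Dict.BaseChange.condSO_of_isEquiv h hP

theorem hBC_condSO (Q : Finset ℕ)
    (DQ : GaloisRep.DeformationRingData 𝒪 ρbar (condSO 𝒪 p Smin Q))
    (φ : DQ.R →ₐ[𝒪] DualNumber (ResidueField 𝒪))
    (hφ : IsLocalHom (φ : DQ.R →+* DualNumber (ResidueField 𝒪)))
    (_ : Function.Surjective φ) :
    condSO 𝒪 p Smin Q (DQ.ρ.baseChangeAlong (φ : DQ.R →+* DualNumber (ResidueField 𝒪)) hφ) :=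
  Fermat.Agent.S56x.Dict.BaseChange.condSO_baseChangeAlong _ hφ DQ.ρ DQ.isOfType

theorem htr_condSO (Q : Finset ℕ) (c : TanCocycle (rbarOf ρbar))
    (hc : condSO 𝒪 p Smin Q (c.lift (hrbarOf ρbar))) (σ : Γℚ) : (c.c σ).trace = 0 :=
  c.trace_eq_zero_of_detIsCyclotomic (hrbarOf ρbar) (Fact.out : p.Prime).pos
    (condSO_detIsCyclotomic hc) σ

theorem hur_condSO (Q : Finset ℕ) (c : TanCocycle (rbarOf ρbar))
    (hc : condSO 𝒪 p Smin Q (c.lift (hrbarOf ρbar))) (q : Nat.Primes)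
    (hq : q ∉ toPrimes Smin ∪ toPrimes Q) :
    (c.lift (hrbarOf ρbar)).IsUnramifiedAt (q : ℕ) :=
  condSO_unramified hc q (by rwa [toPrimes_union])

/-! ### The flat condition -/

theorem hEQ_condFlat (Q : Finset ℕ) (ρ ρ' : GaloisRepAdic (DualNumber (ResidueField 𝒪)))
    (h : ρ.IsEquiv ρ') (hP : condFlat 𝒪 p Smin Q ρ) : condFlat 𝒪 p Smin Q ρ' :=
  Fermat.Agent.S56x.Dict.BaseChange.condFlat_of_isEquiv h hP

theorem hBC_condFlat (Q : Finset ℕ)
    (DQ : GaloisRep.DeformationRingData 𝒪 ρbar (condFlat 𝒪 p Smin Q))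
    (φ : DQ.R →ₐ[𝒪] DualNumber (ResidueField 𝒪))
    (hφ : IsLocalHom (φ : DQ.R →+* DualNumber (ResidueField 𝒪)))
    (_ : Function.Surjective φ) :
    condFlat 𝒪 p Smin Q
      (DQ.ρ.baseChangeAlong (φ : DQ.R →+* DualNumber (ResidueField 𝒪)) hφ) :=
  Fermat.Agent.S56x.Dict.BaseChange.condFlat_baseChangeAlong_dual DQ.ρ φ hφ DQ.isOfType

theorem htr_condFlat (Q : Finset ℕ) (c : TanCocycle (rbarOf ρbar))
    (hc : condFlat 𝒪 p Smin Q (c.lift (hrbarOf ρbar))) (σ : Γℚ) : (c.c σ).trace = 0 :=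
  c.trace_eq_zero_of_detIsCyclotomic (hrbarOf ρbar) (Fact.out : p.Prime).pos
    (condFlat_detIsCyclotomic hc) σ

theorem hur_condFlat (Q : Finset ℕ) (c : TanCocycle (rbarOf ρbar))
    (hc : condFlat 𝒪 p Smin Q (c.lift (hrbarOf ρbar))) (q : Nat.Primes)
    (hq : q ∉ toPrimes Smin ∪ toPrimes Q) :
    (c.lift (hrbarOf ρbar)).IsUnramifiedAt (q : ℕ) :=
  condFlat_unramified hc q (by rwa [toPrimes_union])

/-! ### `SelmerCount` for the two conditions, modulo the local conditions at `Smin` -/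

/-- **`SelmerCount` for the strict ordinary condition**, from `Hyp`, the Greenberg–Wiles package and
a family `Lq` of local conditions at the primes of `Smin` (continuous, containing the localisations
of the classes of strict ordinary tangent cocycles, of dimension `≤ h⁰ + [k : 𝔽_p]` at `p` and
`≤ h⁰` at the other primes of `Smin`). -/
theorem selmerCount_condSO_of_local (hyp : Hyp p ρbar S Smin) (B : GWPackage p)
    (Lq : ∀ q : Nat.Primes, Submodule (ZMod p)
      (H1 (Rep.res (primeLocalToGlobal q) (ad0Rep p (rbarOf ρbar)))))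
    (hLq : ∀ q ∈ toPrimes Smin, Lq q ≤ continuousH1 (primeLocalToGlobal q)
      (Rep.res (primeLocalToGlobal q) (ad0Rep p (rbarOf ρbar))))
    (hLqmem : ∀ (Q : Finset ℕ) (c : TanCocycle (rbarOf ρbar))
      (hc : condSO 𝒪 p Smin Q (c.lift (hrbarOf ρbar))), ∀ q ∈ toPrimes Smin,
      (locRes (fun q : Nat.Primes => primeLocalToGlobal q) (ad0Rep p (rbarOf ρbar)) q).hom
        (c.toClass (p := p) (htr_condSO p ρbar Smin Q c hc)) ∈ Lq q)
    (hLp : finrank (ZMod p) (Lq (pPrime p)) ≤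
      finrank (ZMod p) (Rep.res (primeLocalToGlobal (pPrime p))
        (ad0Rep p (rbarOf ρbar))).ρ.invariants + finrank (ZMod p) (ResidueField 𝒪))
    (hLSmin : ∀ q ∈ toPrimes Smin, q ≠ pPrime p → finrank (ZMod p) (Lq q) ≤
      finrank (ZMod p) (Rep.res (primeLocalToGlobal q) (ad0Rep p (rbarOf ρbar))).ρ.invariants) :
    SelmerCount p ρbar S (condSO 𝒪 p Smin) :=
  selmerCount_of_inputs p ρbar S Smin hyp (condSO 𝒪 p Smin) B
    (hEQ_condSO p Smin) (hBC_condSO p ρbar Smin) (htr_condSO p ρbar Smin)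
    (hur_condSO p ρbar Smin) Lq hLq hLqmem hLp hLSmin
    (fun S' u => hyp.hinf S' u)
    (fun S' q hM hqS hpq h => hTW_of_hyp p ρbar S Smin hyp B S' q hM hqS hpq h)
    (hH0_of_hyp p ρbar S Smin hyp)
    (fun Q' L hLQ hkill => hDual_of_hyp p ρbar S Smin hyp B Q' L hLQ hkill)
    (fun S' Q' hpS L d hQ hpQ hinf hp hQb hrest =>
      hSum_of p ρbar S' Q' hpS L d hQ hpQ hinf hp hQb hrest)
    (hselect_of_hyp_final p ρbar S Smin hyp B)

/-- **`SelmerCount` for the flat condition**, from `Hyp`, the Greenberg–Wiles package and a family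
`Lq` of local conditions at the primes of `Smin`. -/
theorem selmerCount_condFlat_of_local (hyp : Hyp p ρbar S Smin) (B : GWPackage p)
    (Lq : ∀ q : Nat.Primes, Submodule (ZMod p)
      (H1 (Rep.res (primeLocalToGlobal q) (ad0Rep p (rbarOf ρbar)))))
    (hLq : ∀ q ∈ toPrimes Smin, Lq q ≤ continuousH1 (primeLocalToGlobal q)
      (Rep.res (primeLocalToGlobal q) (ad0Rep p (rbarOf ρbar))))
    (hLqmem : ∀ (Q : Finset ℕ) (c : TanCocycle (rbarOf ρbar))
      (hc : condFlat 𝒪 p Smin Q (c.lift (hrbarOf ρbar))), ∀ q ∈ toPrimes Smin,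
      (locRes (fun q : Nat.Primes => primeLocalToGlobal q) (ad0Rep p (rbarOf ρbar)) q).hom
        (c.toClass (p := p) (htr_condFlat p ρbar Smin Q c hc)) ∈ Lq q)
    (hLp : finrank (ZMod p) (Lq (pPrime p)) ≤
      finrank (ZMod p) (Rep.res (primeLocalToGlobal (pPrime p))
        (ad0Rep p (rbarOf ρbar))).ρ.invariants + finrank (ZMod p) (ResidueField 𝒪))
    (hLSmin : ∀ q ∈ toPrimes Smin, q ≠ pPrime p → finrank (ZMod p) (Lq q) ≤
      finrank (ZMod p) (Rep.res (primeLocalToGlobal q) (ad0Rep p (rbarOf ρbar))).ρ.invariants) :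
    SelmerCount p ρbar S (condFlat 𝒪 p Smin) :=
  selmerCount_of_inputs p ρbar S Smin hyp (condFlat 𝒪 p Smin) B
    (hEQ_condFlat p Smin) (hBC_condFlat p ρbar Smin) (htr_condFlat p ρbar Smin)
    (hur_condFlat p ρbar Smin) Lq hLq hLqmem hLp hLSmin
    (fun S' u => hyp.hinf S' u)
    (fun S' q hM hqS hpq h => hTW_of_hyp p ρbar S Smin hyp B S' q hM hqS hpq h)
    (hH0_of_hyp p ρbar S Smin hyp)
    (fun Q' L hLQ hkill => hDual_of_hyp p ρbar S Smin hyp B Q' L hLQ hkill)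
    (fun S' Q' hpS L d hQ hpQ hinf hp hQb hrest =>
      hSum_of p ρbar S' Q' hpS L d hQ hpQ hinf hp hQb hrest)
    (hselect_of_hyp_final p ρbar S Smin hyp B)

end Fermat.Agent.S56x.Assembly
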