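import Mathlib
import Fermat.Agent.S56x.GW.Interface

/-!
# P-S56 (C5): gluing the local conditions at the primes of `Smin`

The local condition at `p` (strict ordinary or flat) and the local conditions at the other primes
of `Smin` (unramified classes) are glued into one family `chooseLq` indexed by all primes, in the
shape required by `Assembly/Final.selmerCount_of_inputs`.
-/

set_option autoImplicit false

open CategoryTheory groupCohomology ExtCitation Module

noncomputable section

namespace Fermat.Agent.S56x.Assembly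

open Fermat.Agent.S56x.GW

local notation "Γℚ" => (AlgebraicClosure ℚ ≃ₐ[ℚ] AlgebraicClosure ℚ)

variable {p : ℕ} [Fact p.Prime] (M : Rep (ZMod p) Γℚ)
  (Lp : Submodule (ZMod p) (H1 (Rep.res (primeLocalToGlobal (pPrime p)) M)))
  (LU : ∀ q : Nat.Primes, Submodule (ZMod p) (H1 (Rep.res (primeLocalToGlobal q) M)))

/-- The family of local conditions equal to `Lp` at `p` and to `LU q` at `q ≠ p`. -/
def chooseLq : ∀ q : Nat.Primes, Submodule (ZMod p) (H1 (Rep.res (primeLocalToGlobal q) M)) :=
  fun q => by
    classical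
    exact if h : q = pPrime p then by subst h; exact Lp else LU q

theorem chooseLq_pPrime : chooseLq M Lp LU (pPrime p) = Lp := by
  unfold chooseLq
  rw [dif_pos rfl]

theorem chooseLq_of_ne {q : Nat.Primes} (h : q ≠ pPrime p) : chooseLq M Lp LU q = LU q := by
  unfold chooseLq
  rw [dif_neg h]

/-- A property of the glued family, checked separately at `p` and away from `p`. -/
theorem chooseLq_induction
    (P : ∀ q : Nat.Primes, Submodule (ZMod p) (H1 (Rep.res (primeLocalToGlobal q) M)) → Prop)
    (q : Nat.Primes) (hp : q = pPrime p → P (pPrime p) Lp) (hU : q ≠ pPrime p → P q (LU q)) :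
    P q (chooseLq M Lp LU q) := by
  by_cases h : q = pPrime p
  · subst h
    rw [chooseLq_pPrime]
    exact hp rfl
  · rw [chooseLq_of_ne M Lp LU h]
    exact hU h

theorem chooseLq_le (S₀ : Finset Nat.Primes)
    (hLp : Lp ≤ continuousH1 (primeLocalToGlobal (pPrime p))
      (Rep.res (primeLocalToGlobal (pPrime p)) M))
    (hLU : ∀ q ∈ S₀, q ≠ pPrime p → LU q ≤ continuousH1 (primeLocalToGlobal q)
      (Rep.res (primeLocalToGlobal q) M)) :
    ∀ q ∈ S₀, chooseLq M Lp LU q ≤ continuousH1 (primeLocalToGlobal q)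
      (Rep.res (primeLocalToGlobal q) M) := fun q hq =>
  chooseLq_induction M Lp LU
    (fun q L => L ≤ continuousH1 (primeLocalToGlobal q) (Rep.res (primeLocalToGlobal q) M)) q
    (fun _ => hLp) (fun h => hLU q hq h)

theorem mem_chooseLq (S₀ : Finset Nat.Primes) (x : H1 M)
    (hp : (locRes (fun q : Nat.Primes => primeLocalToGlobal q) M (pPrime p)).hom x ∈ Lp)
    (hU : ∀ q ∈ S₀, q ≠ pPrime p →
      (locRes (fun q : Nat.Primes => primeLocalToGlobal q) M q).hom x ∈ LU q) :
    ∀ q ∈ S₀, (locRes (fun q : Nat.Primes => primeLocalToGlobal q) M q).hom x ∈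
      chooseLq M Lp LU q := fun q hq =>
  chooseLq_induction M Lp LU
    (fun q L => (locRes (fun q : Nat.Primes => primeLocalToGlobal q) M q).hom x ∈ L) q
    (fun _ => hp) (fun h => hU q hq h)

theorem finrank_chooseLq_pPrime_le (n : ℕ) (h : finrank (ZMod p) Lp ≤ n) :
    finrank (ZMod p) (chooseLq M Lp LU (pPrime p)) ≤ n := by
  rw [chooseLq_pPrime]
  exact h

theorem finrank_chooseLq_le (S₀ : Finset Nat.Primes)
    (h : ∀ q ∈ S₀, q ≠ pPrime p → finrank (ZMod p) (LU q) ≤
      finrank (ZMod p) (Rep.res (primeLocalToGlobal q) M).ρ.invariants) :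
    ∀ q ∈ S₀, q ≠ pPrime p → finrank (ZMod p) (chooseLq M Lp LU q) ≤
      finrank (ZMod p) (Rep.res (primeLocalToGlobal q) M).ρ.invariants := fun q hq hqp => by
  rw [chooseLq_of_ne M Lp LU hqp]
  exact h q hq hqp

end Fermat.Agent.S56x.Assembly

end
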