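import Mathlib
import Fermat.Agent.S56x.Local.UnramInertia
import Fermat.Agent.S56x.Local.UnipotentMember
import Fermat.Agent.S56x.Dict.Ad0Rep

/-!
# P-S56 (C4/C5): the local condition at the primes `q ≠ p` of `Smin`

`LqUnr p rbar q := H¹_unr(G_q, ad⁰ ρbar)` (helper92's `UnramFinal.H1unrAt`), in the three shapes
required by `Assembly/Final.selmerCount_of_inputs`:

* `LqUnr_le` : unramified classes are continuous;
* `finrank_LqUnr` : `dim H¹_unr(G_q, ad⁰) = dim H⁰(G_q, ad⁰)`;
* `locRes_toClass_mem_LqUnr` : the localisation at `q` of the class of a trace-zero tangent cocycle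
  whose lift is unipotent on inertia at the ramified prime `q ≠ p` (helper16's `UnipotentMember`).
-/

set_option autoImplicit false
set_option linter.unusedSectionVars false

open CategoryTheory groupCohomology ExtCitation Module

noncomputable section

namespace Fermat.Agent.S56x.Assembly

open Fermat.Agent.S56x.GW Fermat.Agent.S56x.Dict Fermat.Agent.S53
open Fermat.Agent.S56x.Local.UnramFinal Fermat.Agent.S56x.Local.UnramInertia

local notation "Qbar" => AlgebraicClosure ℚ
local notation "Γℚ" => (AlgebraicClosure ℚ ≃ₐ[ℚ] AlgebraicClosure ℚ)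
local notation "M₂" => Matrix (Fin 2) (Fin 2)

variable {k : Type} [Field k] (p : ℕ) [Fact p.Prime] [Algebra (ZMod p) k] (rbar : Γℚ →* M₂ k)

/-- The unramified local condition at `q`. -/
def LqUnr (q : Nat.Primes) :
    Submodule (ZMod p) (H1 (Rep.res (primeLocalToGlobal q) (ad0Rep p rbar))) :=
  H1unrAt q (ad0Rep p rbar)

theorem LqUnr_le (q : Nat.Primes) :
    LqUnr p rbar q ≤ continuousH1 (primeLocalToGlobal q)
      (Rep.res (primeLocalToGlobal q) (ad0Rep p rbar)) :=
  H1unrAt_le_continuousH1 q (ad0Rep p rbar)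

/-- `ad⁰ ρbar` is a smooth module. -/
theorem isSmooth_ad0Rep (hrbar : GaloisFactorsThroughFiniteLevel rbar) (m : ad0Rep p rbar) :
    ∃ F : IntermediateField ℚ Qbar, FiniteDimensional ℚ F ∧
      ∀ s ∈ F.fixingSubgroup, (ad0Rep p rbar).ρ s m = m := by
  obtain ⟨L, hL, h1⟩ := hrbar
  refine ⟨L, hL, fun s hs => ?_⟩
  have hs' : rbar s = 1 := h1 s ((IntermediateField.mem_fixingSubgroup_iff L s).mp hs)
  show ad0Representation p rbar s m = m
  rw [ad0Representation_eq_one_of_rbar_eq_one p rbar hs']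
  rfl

/-- `dim H¹_unr(G_q, ad⁰ ρbar) = dim H⁰(G_q, ad⁰ ρbar)`. -/
theorem finrank_LqUnr [Module.Finite (ZMod p) k] (hrbar : GaloisFactorsThroughFiniteLevel rbar)
    (q : Nat.Primes) :
    finrank (ZMod p) (LqUnr p rbar q) =
      finrank (ZMod p) (Rep.res (primeLocalToGlobal q) (ad0Rep p rbar)).ρ.invariants :=
  finrank_H1unrAt q (isSmooth_ad0Rep p rbar hrbar)

/-- The localisation at the ramified prime `q ≠ p` of the class of a trace-zero tangent cocycle
whose lift is unipotent on inertia at `q` is unramified. -/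
theorem locRes_toClass_mem_LqUnr (hrbar : GaloisFactorsThroughFiniteLevel rbar)
    (c : TanCocycle rbar) (htr : ∀ σ, (c.c σ).trace = 0) (q : Nat.Primes)
    (hqk : ((q : ℕ) : k) ≠ 0) (h2 : (2 : k) ≠ 0)
    (hunip : (c.lift hrbar).IsUnipotentOnInertiaAt (q : ℕ))
    (hram : ¬ ∀ A : ValuationSubring Qbar, A.LiesOverPrime (q : ℕ) →
      ∀ σ ∈ A.inertiaSubgroupIn ℚ, rbar σ = 1) :
    (locRes (fun q : Nat.Primes => primeLocalToGlobal q) (ad0Rep p rbar) q).hom
      (c.toClass (p := p) htr) ∈ LqUnr p rbar q :=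
  Fermat.Agent.S56x.Local.UnipotentMember.locRes_toClass_mem_of_unipotent (p := p) hrbar c htr q
    hqk h2 hunip hram (LqUnr p rbar q) fun c' h1 h2' =>
      (mem_H1unrAt_iff q (ad0Rep p rbar) _).mpr ⟨c', h1, h2', rfl⟩

end Fermat.Agent.S56x.Assembly

end
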