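import Mathlib
import Fermat.Agent.S56x.Assembly.Inputs
import Fermat.Agent.S56x.Assembly.LocalChoice
import Fermat.Agent.S56x.Assembly.LocalUnip

/-!
# P-S56 (C5): `SelmerCount` for the two conditions from the local condition at `p` alone

`selmerCount_condSO_of_Lp`, `selmerCount_condFlat_of_Lp`: the statement `(T2) = SelmerCount` for
the strict ordinary / flat deformation condition, from the frozen hypotheses `hyp`, the
Greenberg–Wiles package `B` and ONE submodule `Lp` of the local `H¹` at `p` with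

* `Lp ≤ continuousH1`,
* the localisations at `p` of the classes of strict ordinary (resp. flat) tangent cocycles lie in
  `Lp`,
* `dim Lp ≤ h⁰(G_p, ad⁰) + [k : 𝔽_p]`.

The local conditions at the other primes of `Smin` are the unramified classes
(`Assembly/LocalUnip`), glued by `Assembly/LocalChoice.chooseLq`.
-/

set_option autoImplicit false
set_option linter.style.haveILetI false
set_option linter.unusedSectionVars false

open CategoryTheory groupCohomology ExtCitation Module IsLocalRing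

noncomputable section

namespace Fermat.Agent.S56x.Assembly

open Fermat.Agent.S56x Fermat.Agent.S56x.GW Fermat.Agent.S56x.Dict Fermat.Agent.S56x.Basics
  Fermat.Agent.S53

local notation "Γℚ" => (AlgebraicClosure ℚ ≃ₐ[ℚ] AlgebraicClosure ℚ)
local notation "M₂" => Matrix (Fin 2) (Fin 2)

variable {𝒪 : Type} [CommRing 𝒪] [IsDomain 𝒪] [IsDiscreteValuationRing 𝒪]
  [IsAdicComplete (maximalIdeal 𝒪) 𝒪] [Finite (ResidueField 𝒪)]
variable (p : ℕ) [Fact p.Prime] [CharP (ResidueField 𝒪) p]
variable (ρbar : ResidualGaloisRep (ResidueField 𝒪)) (S Smin : Finset ℕ)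

attribute [local instance] dualNumberAlgebra

/-- The `𝔽_p`-algebra structure on the residue field (as in `Assembly/Final`). -/
local instance instAlgZModLoc : Algebra (ZMod p) (ResidueField 𝒪) := algZMod p (ResidueField 𝒪)

local instance instFinZModLoc : Module.Finite (ZMod p) (ResidueField 𝒪) := Module.Finite.of_finite

/-- a prime `q ≠ p` is invertible in the residue field. -/
theorem natCast_prime_ne_zero (q : Nat.Primes) (hq : q ≠ pPrime p) :
    ((q : ℕ) : ResidueField 𝒪) ≠ 0 := by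
  intro h0
  have hdvd : p ∣ (q : ℕ) := (CharP.cast_eq_zero_iff (ResidueField 𝒪) p (q : ℕ)).mp h0
  have : p = (q : ℕ) := ((Nat.prime_dvd_prime_iff_eq (Fact.out : p.Prime) q.2).mp hdvd)
  exact hq (Subtype.ext this.symm)

theorem two_ne_zero_residue (hp2 : p ≠ 2) : (2 : ResidueField 𝒪) ≠ 0 := by
  intro h0
  have h20 : ((2 : ℕ) : ResidueField 𝒪) = 0 := by exact_mod_cast h0
  have hdvd : p ∣ 2 := (CharP.cast_eq_zero_iff (ResidueField 𝒪) p 2).mp h20
  exact hp2 ((Nat.prime_dvd_prime_iff_eq (Fact.out : p.Prime) Nat.prime_two).mp hdvd)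

/-- the matrix model of `ρbar` is ramified at the primes `q ≠ p` of `Smin`. -/
theorem Hyp.rbarOf_ramified (hyp : Hyp p ρbar S Smin) (q : Nat.Primes) (hq : q ∈ toPrimes Smin)
    (hqp : q ≠ pPrime p) :
    ¬ ∀ A : ValuationSubring (AlgebraicClosure ℚ), A.LiesOverPrime (q : ℕ) →
      ∀ σ ∈ A.inertiaSubgroupIn ℚ, rbarOf ρbar σ = 1 := by
  intro h
  have hqp' : (q : ℕ) ≠ p := fun e => hqp (Subtype.ext e)
  exact hyp.not_isUnramifiedAt (mem_toPrimes.mp hq) hqp'
    ((rbarOf_isUnramifiedAt_iff ρbar (q : ℕ)).mp h)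

/-- **`SelmerCount` for the strict ordinary condition** from a local condition at `p`. -/
theorem selmerCount_condSO_of_Lp (hyp : Hyp p ρbar S Smin) (B : GWPackage p)
    (Lp : Submodule (ZMod p)
      (H1 (Rep.res (primeLocalToGlobal (pPrime p)) (ad0Rep p (rbarOf ρbar)))))
    (hLp_le : Lp ≤ continuousH1 (primeLocalToGlobal (pPrime p))
      (Rep.res (primeLocalToGlobal (pPrime p)) (ad0Rep p (rbarOf ρbar))))
    (hLp_mem : ∀ (c : TanCocycle (rbarOf ρbar)) (htr : ∀ σ, (c.c σ).trace = 0),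
      (c.lift (hrbarOf ρbar)).IsStrictOrdinaryAt p →
      (locRes (fun q : Nat.Primes => primeLocalToGlobal q) (ad0Rep p (rbarOf ρbar))
        (pPrime p)).hom (c.toClass (p := p) htr) ∈ Lp)
    (hLp_card : finrank (ZMod p) Lp ≤
      finrank (ZMod p) (Rep.res (primeLocalToGlobal (pPrime p))
        (ad0Rep p (rbarOf ρbar))).ρ.invariants + finrank (ZMod p) (ResidueField 𝒪)) :
    SelmerCount p ρbar S (condSO 𝒪 p Smin) := by
  refine selmerCount_condSO_of_local p ρbar S Smin hyp B
    (chooseLq (ad0Rep p (rbarOf ρbar)) Lp (LqUnr p (rbarOf ρbar)))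
    (chooseLq_le _ _ _ (toPrimes Smin) hLp_le fun q _ _ => LqUnr_le p (rbarOf ρbar) q)
    (fun Q c hc => mem_chooseLq _ _ _ (toPrimes Smin) _
      (hLp_mem c _ (condSO_strictOrdinary hc)) fun q hq hqp => ?_)
    (finrank_chooseLq_pPrime_le _ _ _ _ hLp_card)
    (finrank_chooseLq_le _ _ _ (toPrimes Smin) fun q _ _ =>
      (finrank_LqUnr p (rbarOf ρbar) (hrbarOf ρbar) q).le)
  have hqp' : (q : ℕ) ≠ p := fun e => hqp (Subtype.ext e)
  exact locRes_toClass_mem_LqUnr p (rbarOf ρbar) (hrbarOf ρbar) c _ q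
    (natCast_prime_ne_zero p q hqp) (two_ne_zero_residue p hyp.hp2)
    (condSO_unipotent hc (q : ℕ) (mem_toPrimes.mp hq) q.2 hqp')
    (Hyp.rbarOf_ramified p ρbar S Smin hyp q hq hqp)

/-- **`SelmerCount` for the flat condition** from a local condition at `p`. -/
theorem selmerCount_condFlat_of_Lp (hyp : Hyp p ρbar S Smin) (B : GWPackage p)
    (Lp : Submodule (ZMod p)
      (H1 (Rep.res (primeLocalToGlobal (pPrime p)) (ad0Rep p (rbarOf ρbar)))))
    (hLp_le : Lp ≤ continuousH1 (primeLocalToGlobal (pPrime p))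
      (Rep.res (primeLocalToGlobal (pPrime p)) (ad0Rep p (rbarOf ρbar))))
    (hLp_mem : ∀ (c : TanCocycle (rbarOf ρbar)) (htr : ∀ σ, (c.c σ).trace = 0),
      (c.lift (hrbarOf ρbar)).IsFlatAt p →
      (locRes (fun q : Nat.Primes => primeLocalToGlobal q) (ad0Rep p (rbarOf ρbar))
        (pPrime p)).hom (c.toClass (p := p) htr) ∈ Lp)
    (hLp_card : finrank (ZMod p) Lp ≤
      finrank (ZMod p) (Rep.res (primeLocalToGlobal (pPrime p))
        (ad0Rep p (rbarOf ρbar))).ρ.invariants + finrank (ZMod p) (ResidueField 𝒪)) :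
    SelmerCount p ρbar S (condFlat 𝒪 p Smin) := by
  refine selmerCount_condFlat_of_local p ρbar S Smin hyp B
    (chooseLq (ad0Rep p (rbarOf ρbar)) Lp (LqUnr p (rbarOf ρbar)))
    (chooseLq_le _ _ _ (toPrimes Smin) hLp_le fun q _ _ => LqUnr_le p (rbarOf ρbar) q)
    (fun Q c hc => mem_chooseLq _ _ _ (toPrimes Smin) _
      (hLp_mem c _ (condFlat_flat hc)) fun q hq hqp => ?_)
    (finrank_chooseLq_pPrime_le _ _ _ _ hLp_card)
    (finrank_chooseLq_le _ _ _ (toPrimes Smin) fun q _ _ =>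
      (finrank_LqUnr p (rbarOf ρbar) (hrbarOf ρbar) q).le)
  have hqp' : (q : ℕ) ≠ p := fun e => hqp (Subtype.ext e)
  exact locRes_toClass_mem_LqUnr p (rbarOf ρbar) (hrbarOf ρbar) c _ q
    (natCast_prime_ne_zero p q hqp) (two_ne_zero_residue p hyp.hp2)
    (condFlat_unipotent hc (q : ℕ) (mem_toPrimes.mp hq) q.2 hqp')
    (Hyp.rbarOf_ramified p ρbar S Smin hyp q hq hqp)

end Fermat.Agent.S56x.Assembly

end
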