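import Mathlib
import Fermat.Agent.S56x.Assembly.InstLocal
import Fermat.Agent.S56x.Local.StrictOrdFinal
import Fermat.Agent.S56x.Local.StrictOrdTangent
import Fermat.Agent.S56x.Local.StrictOrdKummer
import Fermat.Agent.S56x.Local.FlatSel
import Fermat.Agent.S56x.Local.FlatIfaceSplit
import Fermat.Agent.S56x.Local.FrobLocal

/-!
# P-S56 (C5): the two `SelmerCount` statements from the block outputs

* `selmerCount_condSO` : `(T2)` for the strict ordinary condition from the frozen hypotheses, the
  Greenberg–Wiles package `B` (block B) and the arithmetic input `hram` (the inertia group at `p`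
  acts non-trivially on `μ_p`, `Local/CycloInertiaP`).
* `selmerCount_condFlat` : `(T2)` for the flat condition from the frozen hypotheses, `B` and the
  theorem of block (A) `FlatIface.FlatCountStatementSplit p (rbarOf ρbar)`.

Together with `S56x/Contract.s56_of_selmerCount` these give the frozen statement S56.
-/

set_option autoImplicit false
set_option linter.style.haveILetI false
set_option linter.unusedSectionVars false

open CategoryTheory groupCohomology ExtCitation Module IsLocalRing

noncomputable section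

namespace Fermat.Agent.S56x.Assembly

open Fermat.Agent.S56x Fermat.Agent.S56x.GW Fermat.Agent.S56x.Dict Fermat.Agent.S56x.Basics
  Fermat.Agent.S53 Fermat.Agent.S56x.Local

local notation "Γℚ" => (AlgebraicClosure ℚ ≃ₐ[ℚ] AlgebraicClosure ℚ)
local notation "M₂" => Matrix (Fin 2) (Fin 2)

variable {𝒪 : Type} [CommRing 𝒪] [IsDomain 𝒪] [IsDiscreteValuationRing 𝒪]
  [IsAdicComplete (maximalIdeal 𝒪) 𝒪] [Finite (ResidueField 𝒪)]
variable (p : ℕ) [Fact p.Prime] [CharP (ResidueField 𝒪) p]
variable (ρbar : ResidualGaloisRep (ResidueField 𝒪)) (S Smin : Finset ℕ)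

attribute [local instance] dualNumberAlgebra

/-- The `𝔽_p`-algebra structure on the residue field (as in `Assembly/Final`). -/
local instance instAlgZModFin : Algebra (ZMod p) (ResidueField 𝒪) := algZMod p (ResidueField 𝒪)

local instance instFinZModFin : Module.Finite (ZMod p) (ResidueField 𝒪) := Module.Finite.of_finite

/-- the place `primeLocalPlace p` lies over `p`. -/
theorem primeLocalPlace_liesOverPrime :
    (primeLocalPlace (pPrime p)).LiesOverPrime p :=
  FrobLocal.padicPlace_liesOverPrime p

/-- **`SelmerCount` for the strict ordinary condition.** -/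
theorem selmerCount_condSO (hyp : Hyp p ρbar S Smin) (B : GWPackage p)
    (hram : ∃ σ ∈ (primeLocalPlace (pPrime p)).inertiaSubgroupIn ℚ, cycloChar p σ ≠ 1) :
    SelmerCount p ρbar S (condSO 𝒪 p Smin) := by
  have hram' : ∃ σ ∈ (primeLocalPlace (pPrime p)).inertiaSubgroupIn ℚ,
      (rbarOf ρbar σ).det ≠ 1 := by
    obtain ⟨σ, hσ, hne⟩ := hram
    refine ⟨σ, hσ, fun h1 => hne ?_⟩
    have hdet := det_rbarOf_eq_cycloChar (p := p) ρbar hyp.hdet σ
    rw [h1] at hdet
    have hinj : Function.Injective (algebraMap (ZMod p) (ResidueField 𝒪)) :=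
      (algebraMap (ZMod p) (ResidueField 𝒪)).injective
    have h2 : ((cycloChar p σ : (ZMod p)ˣ) : ZMod p) = 1 :=
      hinj (by rw [← hdet, map_one])
    exact Units.ext h2
  exact selmerCount_condSO_of_Lp p ρbar S Smin hyp B
    (StrictOrdFinal.LpSOFinal p (rbarOf ρbar))
    (StrictOrdFinal.LpSOFinal_le p (rbarOf ρbar))
    (fun c htr hSO => StrictOrdFinal.locRes_toClass_mem_LpSOFinal hyp.hp2 (hrbarOf ρbar) hram'
      c htr (StrictOrdTangent.exists_line_data hyp.hp2 (hrbarOf ρbar) c htr hSO _
        (primeLocalPlace_liesOverPrime p)))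
    (StrictOrdFinal.finrank_LpSOFinal_le p (rbarOf ρbar) (hrbarOf ρbar)
      (StrictOrdKummer.kummerBound hyp.hp2))

/-- **`SelmerCount` for the flat condition.** -/
theorem selmerCount_condFlat (hyp : Hyp p ρbar S Smin) (B : GWPackage p)
    (hA : FlatIface.FlatCountStatementSplit p (rbarOf ρbar)) :
    SelmerCount p ρbar S (condFlat 𝒪 p Smin) := by
  have hdet : FlatIface.DetIsCycloModP p (rbarOf ρbar) := fun σ a ha =>
    det_rbarOf_of_pow ρbar hyp.hdet σ a ha
  have hEig : FlatIface.EigenvaluesInBase (rbarOf ρbar) := fun σ => by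
    obtain ⟨α, β, h⟩ := hyp.hsplit σ
    exact ⟨α, β, by rw [charpoly_rbarOf, h]⟩
  have hA' : FlatIface.FlatCountStatement p (rbarOf ρbar) := fun hp2 hrbar hdet' =>
    hA hp2 hrbar hdet' hEig
  exact selmerCount_condFlat_of_Lp p ρbar S Smin hyp B
    (FlatSel.LpFlat p (rbarOf ρbar) (hrbarOf ρbar))
    (FlatSel.LpFlat_le p (rbarOf ρbar) (hrbarOf ρbar))
    (fun c htr hflat => FlatSel.locRes_toClass_mem_LpFlat p (rbarOf ρbar) (hrbarOf ρbar) c htr hflat)
    (FlatSel.finrank_LpFlat_le p (rbarOf ρbar) (hrbarOf ρbar) hyp.hp2 hdet hA')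

end Fermat.Agent.S56x.Assembly

end
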