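import Mathlib
import Fermat.Prelude.Def_ExtEndgame_ProductionDatum

/-!
# P-S56 (C5): the bookkeeping of the local terms in the Greenberg–Wiles count

`sum_le_of_local_bounds` : over `extArithIndex S' = {∞} ⊔ S'`, if the local terms `a v = dim L_v`,
`b v = h⁰(G_v, M)` satisfy

* `a ∞ + d ≤ b ∞` (archimedean place: `L_∞ = 0`, `h⁰(G_∞, ad⁰) = d`),
* `a p ≤ b p + d` (the place `p`),
* `a q ≤ b q + d` for the auxiliary primes `q ∈ Q'` (Taylor–Wiles primes),
* `a q ≤ b q` at the remaining primes of `S'`,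

then `∑ a ≤ ∑ b + #Q' * d`: this is the hypothesis `hsum` of `Assembly.cocycleCount_fixed` with
`N = #Q' * d`.
-/

set_option autoImplicit false

open ExtCitation

namespace Fermat.Agent.S56x.Assembly.GWNumerics

/-- Splitting a sum over `extArithIndex S'` into the archimedean place and the primes. -/
theorem sum_extArithIndex (S' : Finset Nat.Primes) (f : extArithIndex S' → ℕ) :
    ∑ v, f v = f (Sum.inl ()) + ∑ q : S', f (Sum.inr q) := by
  have h : ∑ v : Unit ⊕ S', f v = ∑ u : Unit, f (Sum.inl u) + ∑ q : S', f (Sum.inr q) :=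
    Fintype.sum_sum_type f
  have h2 : ∑ u : Unit, f (Sum.inl u) = f (Sum.inl ()) := by
    rw [Finset.univ_unique, Finset.sum_singleton]
  rw [h2] at h
  exact h

/-- The weights `d` at `p` and at the primes of `Q'` add up to `(1 + #Q') d`. -/
theorem sum_weights (S' Q' : Finset Nat.Primes) (pp : Nat.Primes) (hpS : pp ∈ S')
    (hQS : Q' ⊆ S') (hpQ : pp ∉ Q') (d : ℕ) :
    ∑ q : S', (if q.1 = pp then d else if q.1 ∈ Q' then d else 0) = d + Q'.card * d := by
  classical
  have h1 : ∑ q : S', (if q.1 = pp then d else if q.1 ∈ Q' then d else 0) =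
      ∑ q ∈ S', (if q = pp then d else if q ∈ Q' then d else 0) :=
    Finset.sum_coe_sort S' (fun q => if q = pp then d else if q ∈ Q' then d else 0)
  rw [h1]
  have h2 : ∀ q ∈ S', (if q = pp then d else if q ∈ Q' then d else 0) =
      (if q = pp then d else 0) + (if q ∈ Q' then d else 0) := by
    intro q _
    by_cases hq : q = pp
    · subst hq
      simp [hpQ]
    · simp [hq]
  rw [Finset.sum_congr rfl h2, Finset.sum_add_distrib, Finset.sum_ite_eq' S' pp (fun _ => d),
    if_pos hpS]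
  congr 1
  rw [← Finset.sum_filter, Finset.filter_mem_eq_inter, Finset.inter_eq_right.mpr hQS,
    Finset.sum_const, smul_eq_mul]

/-- **The local bookkeeping of the Greenberg–Wiles count.** -/
theorem sum_le_of_local_bounds (S' Q' : Finset Nat.Primes) (pp : Nat.Primes) (hpS : pp ∈ S')
    (hQS : Q' ⊆ S') (hpQ : pp ∉ Q') (a b : extArithIndex S' → ℕ) (d : ℕ)
    (hinf : a (Sum.inl ()) + d ≤ b (Sum.inl ()))
    (hp : a (Sum.inr ⟨pp, hpS⟩) ≤ b (Sum.inr ⟨pp, hpS⟩) + d)
    (hQ : ∀ (q : Nat.Primes) (hq : q ∈ S'), q ∈ Q' →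
      a (Sum.inr ⟨q, hq⟩) ≤ b (Sum.inr ⟨q, hq⟩) + d)
    (hmin : ∀ (q : Nat.Primes) (hq : q ∈ S'), q ∉ Q' → q ≠ pp →
      a (Sum.inr ⟨q, hq⟩) ≤ b (Sum.inr ⟨q, hq⟩)) :
    ∑ v, a v ≤ ∑ v, b v + Q'.card * d := by
  classical
  rw [sum_extArithIndex, sum_extArithIndex]
  have h1 : ∑ q : S', a (Sum.inr q) ≤
      ∑ q : S', (b (Sum.inr q) + (if q.1 = pp then d else if q.1 ∈ Q' then d else 0)) := by
    refine Finset.sum_le_sum fun q _ => ?_
    obtain ⟨q, hq⟩ := q
    by_cases hqp : q = pp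
    · subst hqp
      simpa using hp
    · by_cases hqQ : q ∈ Q'
      · simpa [hqp, hqQ] using hQ q hq hqQ
      · simpa [hqp, hqQ] using hmin q hq hqQ hqp
  rw [Finset.sum_add_distrib, sum_weights S' Q' pp hpS hQS hpQ d] at h1
  omega

end Fermat.Agent.S56x.Assembly.GWNumerics
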