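import Mathlib
import Fermat.Agent.S56x.Contract
import Fermat.Agent.S56x.Assembly.Inputs

/-!
# P-S56: the frozen statement from the Greenberg–Wiles package and the local data at `Smin`

`LocalData p ρbar Smin cond htr` bundles the only inputs of the two `SelmerCount` statements which
are not yet discharged by `Assembly/Inputs`: a family `Lq` of local conditions at the primes of
`Smin` with its four properties (`hLq`, `hLqmem`, `hLp`, `hLSmin` of
`Assembly/Final.selmerCount_of_inputs`).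

* `selmerCount_condSO_of_localData`, `selmerCount_condFlat_of_localData`;
* `s56_of_localData` : **the frozen statement S56** (conclusion verbatim) from the frozen
  hypotheses, `B : GWPackage p`, and the local data for the two conditions.
-/

set_option autoImplicit false
set_option linter.style.haveILetI false
set_option linter.unusedSectionVars false

open CategoryTheory groupCohomology ExtCitation Module IsLocalRing Polynomial

noncomputable section

namespace Fermat.Agent.S56x.Assembly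

open Fermat.Agent.S56x Fermat.Agent.S56x.GW Fermat.Agent.S56x.Dict Fermat.Agent.S56x.Basics
  Fermat.Agent.S53

local notation "Γℚ" => (AlgebraicClosure ℚ ≃ₐ[ℚ] AlgebraicClosure ℚ)
local notation "M₂" => Matrix (Fin 2) (Fin 2)

section Data

variable {𝒪 : Type} [CommRing 𝒪] [IsDomain 𝒪] [IsDiscreteValuationRing 𝒪]
  [IsAdicComplete (maximalIdeal 𝒪) 𝒪] [Finite (ResidueField 𝒪)]
variable (p : ℕ) [Fact p.Prime] [CharP (ResidueField 𝒪) p]
variable (ρbar : ResidualGaloisRep (ResidueField 𝒪)) (S Smin : Finset ℕ)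

attribute [local instance] dualNumberAlgebra

local instance instAlgZModRed : Algebra (ZMod p) (ResidueField 𝒪) := algZMod p (ResidueField 𝒪)

local instance instFinZModRed : Module.Finite (ZMod p) (ResidueField 𝒪) := Module.Finite.of_finite

/-- The local data at the primes of `Smin` for a deformation condition `cond` all of whose tangent
cocycles have trace zero (`htr`): a family of local conditions `Lq` which are continuous, contain
the localisations of the classes of the tangent cocycles of type `cond`, and have dimension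
`≤ h⁰ + [k : 𝔽_p]` at `p` and `≤ h⁰` at the other primes of `Smin`. -/
def LocalData
    (cond : Finset ℕ → ∀ ⦃A : Type⦄ [CommRing A] [IsLocalRing A] [Algebra 𝒪 A],
      GaloisRepAdic A → Prop)
    (htr : ∀ (Q : Finset ℕ) (c : TanCocycle (rbarOf ρbar)),
      cond Q (c.lift (hrbarOf ρbar)) → ∀ σ : Γℚ, (c.c σ).trace = 0) : Prop :=
  ∃ Lq : ∀ q : Nat.Primes, Submodule (ZMod p)
      (H1 (Rep.res (primeLocalToGlobal q) (ad0Rep p (rbarOf ρbar)))),
    (∀ q ∈ toPrimes Smin, Lq q ≤ continuousH1 (primeLocalToGlobal q)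
      (Rep.res (primeLocalToGlobal q) (ad0Rep p (rbarOf ρbar)))) ∧
    (∀ (Q : Finset ℕ) (c : TanCocycle (rbarOf ρbar))
      (hc : cond Q (c.lift (hrbarOf ρbar))), ∀ q ∈ toPrimes Smin,
      (locRes (fun q : Nat.Primes => primeLocalToGlobal q) (ad0Rep p (rbarOf ρbar)) q).hom
        (c.toClass (p := p) (htr Q c hc)) ∈ Lq q) ∧
    (finrank (ZMod p) (Lq (pPrime p)) ≤
      finrank (ZMod p) (Rep.res (primeLocalToGlobal (pPrime p))
        (ad0Rep p (rbarOf ρbar))).ρ.invariants + finrank (ZMod p) (ResidueField 𝒪)) ∧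
    (∀ q ∈ toPrimes Smin, q ≠ pPrime p → finrank (ZMod p) (Lq q) ≤
      finrank (ZMod p) (Rep.res (primeLocalToGlobal q) (ad0Rep p (rbarOf ρbar))).ρ.invariants)

/-- `SelmerCount` for the strict ordinary condition from the local data. -/
theorem selmerCount_condSO_of_localData (hyp : Hyp p ρbar S Smin) (B : GWPackage p)
    (h : LocalData p ρbar Smin (condSO 𝒪 p Smin) (htr_condSO p ρbar Smin)) :
    SelmerCount p ρbar S (condSO 𝒪 p Smin) := by
  obtain ⟨Lq, hLq, hLqmem, hLp, hLSmin⟩ := h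
  exact selmerCount_condSO_of_local p ρbar S Smin hyp B Lq hLq hLqmem hLp hLSmin

/-- `SelmerCount` for the flat condition from the local data. -/
theorem selmerCount_condFlat_of_localData (hyp : Hyp p ρbar S Smin) (B : GWPackage p)
    (h : LocalData p ρbar Smin (condFlat 𝒪 p Smin) (htr_condFlat p ρbar Smin)) :
    SelmerCount p ρbar S (condFlat 𝒪 p Smin) := by
  obtain ⟨Lq, hLq, hLqmem, hLp, hLSmin⟩ := h
  exact selmerCount_condFlat_of_local p ρbar S Smin hyp B Lq hLq hLqmem hLp hLSmin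

end Data

/-- **The frozen statement S56** (hypotheses and conclusion verbatim) from the Greenberg–Wiles
package `B` and the local data at `Smin` for the two deformation conditions.  The instance
`CharP (ResidueField 𝒪) p` needed to state the local data is produced from `hp𝒪`. -/
theorem s56_of_localData
    {𝒪 : Type} [CommRing 𝒪] [IsDomain 𝒪] [IsDiscreteValuationRing 𝒪]
    [IsAdicComplete (maximalIdeal 𝒪) 𝒪] [Finite (ResidueField 𝒪)]
    (p : ℕ) [Fact p.Prime] (hp2 : p ≠ 2) (hp𝒪 : (p : 𝒪) ∈ maximalIdeal 𝒪)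
    (ρbar : ResidualGaloisRep (ResidueField 𝒪))
    (habs : ρbar.IsAbsolutelyIrreducible)
    (hdet : (GaloisRepAdic.ofResidualGaloisRep ρbar).DetIsCyclotomic p)
    (hsplit : ∀ σ : AlgebraicClosure ℚ ≃ₐ[ℚ] AlgebraicClosure ℚ,
      ∃ α β : ResidueField 𝒪, LinearMap.charpoly (ρbar.ρ σ) = (X - C α) * (X - C β))
    (hTW : ∀ (K : Type) [Field K] [Algebra (ResidueField 𝒪) K]
      (G : Subgroup (AlgebraicClosure ℚ ≃ₐ[ℚ] AlgebraicClosure ℚ)), G.index = 2 →
      ∀ V : Submodule K (ρbar.baseChange K).V,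
        (∀ σ ∈ G, ∀ x ∈ V, (ρbar.baseChange K).ρ σ x ∈ V) → V = ⊥ ∨ V = ⊤)
    (S Smin : Finset ℕ) (hpSmin : p ∈ Smin) (hSmin : Smin ⊆ S) (hS : ∀ q ∈ S, q.Prime)
    (hmin : ∀ q : ℕ, q.Prime → q ≠ p → (q ∈ Smin ↔ ¬ ρbar.IsUnramifiedAt q))
    (B : GWPackage p)
    (hSO : ∀ [CharP (ResidueField 𝒪) p],
      LocalData p ρbar Smin (condSO 𝒪 p Smin) (htr_condSO p ρbar Smin))
    (hFlat : ∀ [CharP (ResidueField 𝒪) p],
      LocalData p ρbar Smin (condFlat 𝒪 p Smin) (htr_condFlat p ρbar Smin)) :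
    (∃ r : ℕ, ∀ n : ℕ, ∃ qv : Fin r → ℕ, Function.Injective qv ∧
      (∀ i, (qv i).Prime ∧ qv i ∉ S ∧ p ^ (n + 1) ∣ qv i - 1) ∧
      (∀ i, ∀ P : ValuationSubring (AlgebraicClosure ℚ), P.LiesOverPrime (qv i) →
        ∀ φ : AlgebraicClosure ℚ ≃ₐ[ℚ] AlgebraicClosure ℚ, P.IsFrobeniusAt φ (qv i) →
          ∃ α β : ResidueField 𝒪, α ≠ β ∧ LinearMap.charpoly (ρbar.ρ φ) = (X - C α) * (X - C β)) ∧
      ∀ DQ : GaloisRep.DeformationRingData 𝒪 ρbar (fun _A _ _ _ ρ =>
          GaloisRep.strictOrdinaryCondition 𝒪 p (Smin ∪ Finset.univ.image qv) ρ ∧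
            ∀ q ∈ Smin, q.Prime → q ≠ p → ρ.IsUnipotentOnInertiaAt q),
        ∃ γ : MvPowerSeries (Fin r) 𝒪 →ₐ[𝒪] DQ.R, Function.Surjective γ) ∧
    (∃ r : ℕ, ∀ n : ℕ, ∃ qv : Fin r → ℕ, Function.Injective qv ∧
      (∀ i, (qv i).Prime ∧ qv i ∉ S ∧ p ^ (n + 1) ∣ qv i - 1) ∧
      (∀ i, ∀ P : ValuationSubring (AlgebraicClosure ℚ), P.LiesOverPrime (qv i) →
        ∀ φ : AlgebraicClosure ℚ ≃ₐ[ℚ] AlgebraicClosure ℚ, P.IsFrobeniusAt φ (qv i) →
          ∃ α β : ResidueField 𝒪, α ≠ β ∧ LinearMap.charpoly (ρbar.ρ φ) = (X - C α) * (X - C β)) ∧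
      ∀ DQ : GaloisRep.DeformationRingData 𝒪 ρbar (fun _A _ _ _ ρ =>
          GaloisRep.flatCondition 𝒪 p (Smin ∪ Finset.univ.image qv) ρ ∧
            ∀ q ∈ Smin, q.Prime → q ≠ p → ρ.IsUnipotentOnInertiaAt q),
        ∃ γ : MvPowerSeries (Fin r) 𝒪 →ₐ[𝒪] DQ.R, Function.Surjective γ) := by
  have hyp : Hyp p ρbar S Smin :=
    ⟨hp2, hp𝒪, habs, hdet, hsplit, hTW, hpSmin, hSmin, hS, hmin⟩
  haveI : CharP (ResidueField 𝒪) p := charP_residueField p hp𝒪
  exact s56_of_selmerCount p ρbar S Smin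
    (selmerCount_condSO_of_localData p ρbar S Smin hyp B hSO)
    (selmerCount_condFlat_of_localData p ρbar S Smin hyp B hFlat)

end Fermat.Agent.S56x.Assembly

end
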