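import Mathlib
import Fermat.Agent.S56x.Assembly.Reduction
import Fermat.Agent.S56x.Assembly.LocalChoice
import Fermat.Agent.S56x.Local.UnipotentCountB

/-!
# P-S56 (C5): `LocalData` from a local condition at `p` alone (helper89)

The local data `LocalData p ρbar Smin cond htr` of `Assembly/Reduction` asks for a family `Lq` of
local conditions at all primes of `Smin`.  Away from `p` the family is always the unramified
classes `LqU` of `Local/UnipotentCountB` (three statements, unconditional); this file glues them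
(`Assembly/LocalChoice.chooseLq`) with an arbitrary local condition `Lp` at `p`:

* `localData_of_Lp` : for any deformation condition `cond` forcing unipotent inertia at the primes
  `q ≠ p` of `Smin`, `LocalData` follows from `Lp` with its three statements at `p`
  (continuity, membership, count);
* `localData_condSO_of_Lp`, `localData_condFlat_of_Lp` : the two instances.

So `hSO` / `hFlat` of `Assembly/Reduction.s56_of_localData` are reduced to the data at `p`.
-/

set_option autoImplicit false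
set_option linter.style.haveILetI false
set_option linter.unusedSectionVars false

open CategoryTheory groupCohomology ExtCitation Module IsLocalRing

noncomputable section

namespace Fermat.Agent.S56x.Assembly

open Fermat.Agent.S56x Fermat.Agent.S56x.GW Fermat.Agent.S56x.Dict Fermat.Agent.S56x.Basics
  Fermat.Agent.S53 Fermat.Agent.S56x.Local.UnipotentCountB

local notation "Γℚ" => (AlgebraicClosure ℚ ≃ₐ[ℚ] AlgebraicClosure ℚ)
local notation "M₂" => Matrix (Fin 2) (Fin 2)

variable {𝒪 : Type} [CommRing 𝒪] [IsDomain 𝒪] [IsDiscreteValuationRing 𝒪]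
  [IsAdicComplete (maximalIdeal 𝒪) 𝒪] [Finite (ResidueField 𝒪)]
variable (p : ℕ) [Fact p.Prime] [CharP (ResidueField 𝒪) p]
variable (ρbar : ResidualGaloisRep (ResidueField 𝒪)) (S Smin : Finset ℕ)

attribute [local instance] dualNumberAlgebra

local instance instAlgZModLD : Algebra (ZMod p) (ResidueField 𝒪) := algZMod p (ResidueField 𝒪)

local instance instFinZModLD : Module.Finite (ZMod p) (ResidueField 𝒪) := Module.Finite.of_finite

/-- `ρbar` (in matrix form) is ramified at the primes `q ≠ p` of `Smin`, in the shape of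
`Local/UnipotentCountB.locRes_toClass_mem_LqU'`. -/
theorem rbarOf_ramified_of_hyp (hyp : Hyp p ρbar S Smin) {q : Nat.Primes}
    (hq : q ∈ toPrimes Smin) (hqp : q ≠ pPrime p) :
    ¬ ∀ A : ValuationSubring (AlgebraicClosure ℚ), A.LiesOverPrime (q : ℕ) →
      ∀ σ ∈ A.inertiaSubgroupIn ℚ, rbarOf ρbar σ = 1 := fun h =>
  hyp.not_isUnramifiedAt (mem_toPrimes.mp hq) ((ne_pPrime_iff q).mp hqp)
    ((rbarOf_isUnramifiedAt_iff ρbar (q : ℕ)).mp h)

/-- **`LocalData` from the data at `p`**, for any deformation condition forcing unipotent inertia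
at the primes `q ≠ p` of `Smin`. -/
theorem localData_of_Lp (hyp : Hyp p ρbar S Smin)
    (cond : Finset ℕ → ∀ ⦃A : Type⦄ [CommRing A] [IsLocalRing A] [Algebra 𝒪 A],
      GaloisRepAdic A → Prop)
    (htr : ∀ (Q : Finset ℕ) (c : TanCocycle (rbarOf ρbar)),
      cond Q (c.lift (hrbarOf ρbar)) → ∀ σ : Γℚ, (c.c σ).trace = 0)
    (hunip : ∀ (Q : Finset ℕ) (c : TanCocycle (rbarOf ρbar)),
      cond Q (c.lift (hrbarOf ρbar)) → ∀ q ∈ Smin, q.Prime → q ≠ p →
        (c.lift (hrbarOf ρbar)).IsUnipotentOnInertiaAt q)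
    (Lp : Submodule (ZMod p)
      (H1 (Rep.res (primeLocalToGlobal (pPrime p)) (ad0Rep p (rbarOf ρbar)))))
    (hLp_le : Lp ≤ continuousH1 (primeLocalToGlobal (pPrime p))
      (Rep.res (primeLocalToGlobal (pPrime p)) (ad0Rep p (rbarOf ρbar))))
    (hLp_mem : ∀ (Q : Finset ℕ) (c : TanCocycle (rbarOf ρbar))
      (hc : cond Q (c.lift (hrbarOf ρbar))),
      (locRes (fun q : Nat.Primes => primeLocalToGlobal q) (ad0Rep p (rbarOf ρbar))
        (pPrime p)).hom (c.toClass (p := p) (htr Q c hc)) ∈ Lp)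
    (hLp_count : finrank (ZMod p) Lp ≤
      finrank (ZMod p) (Rep.res (primeLocalToGlobal (pPrime p))
        (ad0Rep p (rbarOf ρbar))).ρ.invariants + finrank (ZMod p) (ResidueField 𝒪)) :
    LocalData p ρbar Smin cond htr := by
  refine ⟨chooseLq (ad0Rep p (rbarOf ρbar)) Lp (LqU p (rbarOf ρbar)), ?_, ?_, ?_, ?_⟩
  · exact chooseLq_le (ad0Rep p (rbarOf ρbar)) Lp (LqU p (rbarOf ρbar)) (toPrimes Smin) hLp_le
      (fun q _ _ => LqU_le p (rbarOf ρbar) q)
  · intro Q c hc
    refine mem_chooseLq (ad0Rep p (rbarOf ρbar)) Lp (LqU p (rbarOf ρbar)) (toPrimes Smin)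
      (c.toClass (p := p) (htr Q c hc)) (hLp_mem Q c hc) (fun q hq hqp => ?_)
    exact locRes_toClass_mem_LqU' hyp.hp2 (hrbarOf ρbar) c (htr Q c hc) q
      ((ne_pPrime_iff q).mp hqp)
      (hunip Q c hc (q : ℕ) (mem_toPrimes.mp hq) q.2 ((ne_pPrime_iff q).mp hqp))
      (rbarOf_ramified_of_hyp p ρbar S Smin hyp hq hqp)
  · exact finrank_chooseLq_pPrime_le (ad0Rep p (rbarOf ρbar)) Lp (LqU p (rbarOf ρbar)) _
      hLp_count
  · exact finrank_chooseLq_le (ad0Rep p (rbarOf ρbar)) Lp (LqU p (rbarOf ρbar)) (toPrimes Smin)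
      (fun q _ _ => finrank_LqU_le p (rbarOf ρbar) q (hrbarOf ρbar))

/-- `LocalData` for the strict ordinary condition from the data at `p`. -/
theorem localData_condSO_of_Lp (hyp : Hyp p ρbar S Smin)
    (Lp : Submodule (ZMod p)
      (H1 (Rep.res (primeLocalToGlobal (pPrime p)) (ad0Rep p (rbarOf ρbar)))))
    (hLp_le : Lp ≤ continuousH1 (primeLocalToGlobal (pPrime p))
      (Rep.res (primeLocalToGlobal (pPrime p)) (ad0Rep p (rbarOf ρbar))))
    (hLp_mem : ∀ (Q : Finset ℕ) (c : TanCocycle (rbarOf ρbar))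
      (hc : condSO 𝒪 p Smin Q (c.lift (hrbarOf ρbar))),
      (locRes (fun q : Nat.Primes => primeLocalToGlobal q) (ad0Rep p (rbarOf ρbar))
        (pPrime p)).hom (c.toClass (p := p) (htr_condSO p ρbar Smin Q c hc)) ∈ Lp)
    (hLp_count : finrank (ZMod p) Lp ≤
      finrank (ZMod p) (Rep.res (primeLocalToGlobal (pPrime p))
        (ad0Rep p (rbarOf ρbar))).ρ.invariants + finrank (ZMod p) (ResidueField 𝒪)) :
    LocalData p ρbar Smin (condSO 𝒪 p Smin) (htr_condSO p ρbar Smin) :=
  localData_of_Lp p ρbar S Smin hyp (condSO 𝒪 p Smin) (htr_condSO p ρbar Smin)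
    (fun _ _ hc => condSO_unipotent hc) Lp hLp_le hLp_mem hLp_count

/-- `LocalData` for the flat condition from the data at `p`. -/
theorem localData_condFlat_of_Lp (hyp : Hyp p ρbar S Smin)
    (Lp : Submodule (ZMod p)
      (H1 (Rep.res (primeLocalToGlobal (pPrime p)) (ad0Rep p (rbarOf ρbar)))))
    (hLp_le : Lp ≤ continuousH1 (primeLocalToGlobal (pPrime p))
      (Rep.res (primeLocalToGlobal (pPrime p)) (ad0Rep p (rbarOf ρbar))))
    (hLp_mem : ∀ (Q : Finset ℕ) (c : TanCocycle (rbarOf ρbar))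
      (hc : condFlat 𝒪 p Smin Q (c.lift (hrbarOf ρbar))),
      (locRes (fun q : Nat.Primes => primeLocalToGlobal q) (ad0Rep p (rbarOf ρbar))
        (pPrime p)).hom (c.toClass (p := p) (htr_condFlat p ρbar Smin Q c hc)) ∈ Lp)
    (hLp_count : finrank (ZMod p) Lp ≤
      finrank (ZMod p) (Rep.res (primeLocalToGlobal (pPrime p))
        (ad0Rep p (rbarOf ρbar))).ρ.invariants + finrank (ZMod p) (ResidueField 𝒪)) :
    LocalData p ρbar Smin (condFlat 𝒪 p Smin) (htr_condFlat p ρbar Smin) :=
  localData_of_Lp p ρbar S Smin hyp (condFlat 𝒪 p Smin) (htr_condFlat p ρbar Smin)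
    (fun _ _ hc => condFlat_unipotent hc) Lp hLp_le hLp_mem hLp_count

end Fermat.Agent.S56x.Assembly

end
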