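import Mathlib
import Fermat.Agent.S56x.Assembly.LocalDataOfLp
import Fermat.Agent.S56x.Local.StrictOrdFinal
import Fermat.Agent.S56x.Local.StrictOrdTangent
import Fermat.Agent.S56x.Local.StrictOrdKummer
import Fermat.Agent.S56x.Local.FlatIfaceBridge
import Fermat.Agent.S56x.Local.FrobLocal

/-!
# P-S56 (C5): the local data for the two deformation conditions, and S56 from the blocks

(helper89, after helper72's draft `Assembly/InstFinal`.)

* `localData_condSO` : `LocalData` for the strict ordinary condition, from the frozen hypotheses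
  and the arithmetic input `hram` (the inertia group at `p` acts non-trivially on `μ_p`,
  `Local/CycloInertiaP`): `Lp := StrictOrdFinal.LpSOFinal`, the primes `q ≠ p` of `Smin` by
  `Assembly/LocalDataOfLp`.
* `localData_condFlat` : `LocalData` for the flat condition, from the frozen hypotheses and the
  theorem of block (A) `FlatIface.FlatCountStatementSplit p (rbarOf ρbar)`: `Lp := FlatLq.LpFlat`.
* `s56_of_blocks` : **the frozen statement S56** (hypotheses and conclusion verbatim) from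
  EXACTLY three inputs: the Greenberg–Wiles package `B : GWPackage p` (block B), `hram`
  (`Local/CycloInertiaP`) and the flat count of block (A).
-/

set_option autoImplicit false
set_option linter.style.haveILetI false
set_option linter.unusedSectionVars false

open CategoryTheory groupCohomology ExtCitation Module IsLocalRing Polynomial

noncomputable section

namespace Fermat.Agent.S56x.Assembly

open Fermat.Agent.S56x Fermat.Agent.S56x.GW Fermat.Agent.S56x.Dict Fermat.Agent.S56x.Basics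
  Fermat.Agent.S53 Fermat.Agent.S56x.Local

local notation "Γℚ" => (AlgebraicClosure ℚ ≃ₐ[ℚ] AlgebraicClosure ℚ)
local notation "M₂" => Matrix (Fin 2) (Fin 2)

section Data

variable {𝒪 : Type} [CommRing 𝒪] [IsDomain 𝒪] [IsDiscreteValuationRing 𝒪]
  [IsAdicComplete (maximalIdeal 𝒪) 𝒪] [Finite (ResidueField 𝒪)]
variable (p : ℕ) [Fact p.Prime] [CharP (ResidueField 𝒪) p]
variable (ρbar : ResidualGaloisRep (ResidueField 𝒪)) (S Smin : Finset ℕ)

attribute [local instance] dualNumberAlgebra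

local instance instAlgZModLDI : Algebra (ZMod p) (ResidueField 𝒪) := algZMod p (ResidueField 𝒪)

local instance instFinZModLDI : Module.Finite (ZMod p) (ResidueField 𝒪) := Module.Finite.of_finite

/-- the place `primeLocalPlace (pPrime p)` lies over `p`. -/
theorem primeLocalPlace_pPrime_liesOverPrime :
    (primeLocalPlace (pPrime p)).LiesOverPrime p :=
  FrobLocal.padicPlace_liesOverPrime p

/-- an inertia element at `p` moving `μ_p` has `det rbar ≠ 1`. -/
theorem exists_inertia_det_rbarOf_ne_one (hyp : Hyp p ρbar S Smin)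
    (hram : ∃ σ ∈ (primeLocalPlace (pPrime p)).inertiaSubgroupIn ℚ, cycloChar p σ ≠ 1) :
    ∃ σ ∈ (primeLocalPlace (pPrime p)).inertiaSubgroupIn ℚ, (rbarOf ρbar σ).det ≠ 1 := by
  obtain ⟨σ, hσ, hne⟩ := hram
  refine ⟨σ, hσ, fun h1 => hne ?_⟩
  have hdet := det_rbarOf_eq_cycloChar (p := p) ρbar hyp.hdet σ
  rw [h1] at hdet
  have hinj : Function.Injective (algebraMap (ZMod p) (ResidueField 𝒪)) :=
    (algebraMap (ZMod p) (ResidueField 𝒪)).injective
  have h2 : ((cycloChar p σ : (ZMod p)ˣ) : ZMod p) = 1 :=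
    hinj (by rw [← hdet, map_one])
  exact Units.ext h2

/-- **`LocalData` for the strict ordinary condition.** -/
theorem localData_condSO (hyp : Hyp p ρbar S Smin)
    (hram : ∃ σ ∈ (primeLocalPlace (pPrime p)).inertiaSubgroupIn ℚ, cycloChar p σ ≠ 1) :
    LocalData p ρbar Smin (condSO 𝒪 p Smin) (htr_condSO p ρbar Smin) := by
  have hram' := exists_inertia_det_rbarOf_ne_one p ρbar S Smin hyp hram
  refine localData_condSO_of_Lp p ρbar S Smin hyp
    (StrictOrdFinal.LpSOFinal p (rbarOf ρbar))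
    (StrictOrdFinal.LpSOFinal_le p (rbarOf ρbar))
    (fun Q c hc => ?_)
    (StrictOrdFinal.finrank_LpSOFinal_le p (rbarOf ρbar) (hrbarOf ρbar)
      (StrictOrdKummer.kummerBound hyp.hp2))
  exact StrictOrdFinal.locRes_toClass_mem_LpSOFinal hyp.hp2 (hrbarOf ρbar) hram' c
    (htr_condSO p ρbar Smin Q c hc)
    (StrictOrdTangent.exists_line_data hyp.hp2 (hrbarOf ρbar) c
      (htr_condSO p ρbar Smin Q c hc) (condSO_strictOrdinary hc) _
      (primeLocalPlace_pPrime_liesOverPrime p))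

/-- **`LocalData` for the flat condition.** -/
theorem localData_condFlat (hyp : Hyp p ρbar S Smin)
    (hA : FlatIface.FlatCountStatementSplit p (rbarOf ρbar)) :
    LocalData p ρbar Smin (condFlat 𝒪 p Smin) (htr_condFlat p ρbar Smin) :=
  localData_condFlat_of_Lp p ρbar S Smin hyp
    (FlatLq.LpFlat p (rbarOf ρbar) (hrbarOf ρbar))
    (FlatLq.LpFlat_le_continuousH1 p (hrbarOf ρbar))
    (fun Q c hc => FlatLq.locRes_toClass_mem_LpFlat_of_condFlat p Smin Q (hrbarOf ρbar) c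
      (htr_condFlat p ρbar Smin Q c hc) hc)
    (FlatIfaceBridge.finrank_LpFlat_rbarOf_le p ρbar hyp hA)

end Data

/-- **The frozen statement S56** (hypotheses and conclusion verbatim) from the three block
outputs: the Greenberg–Wiles package `B` (block B), the ramification of `μ_p` at `p` (`hram`,
`Local/CycloInertiaP`) and the flat count of block (A). -/
theorem s56_of_blocks
    {𝒪 : Type} [CommRing 𝒪] [IsDomain 𝒪] [IsDiscreteValuationRing 𝒪]
    [IsAdicComplete (maximalIdeal 𝒪) 𝒪] [Finite (ResidueField 𝒪)]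
    (p : ℕ) [Fact p.Prime] (hp2 : p ≠ 2) (hp𝒪 : (p : 𝒪) ∈ maximalIdeal 𝒪)
    (ρbar : ResidualGaloisRep (ResidueField 𝒪))
    (habs : ρbar.IsAbsolutelyIrreducible)
    (hdet : (GaloisRepAdic.ofResidualGaloisRep ρbar).DetIsCyclotomic p)
    (hsplit : ∀ σ : AlgebraicClosure ℚ ≃ₐ[ℚ] AlgebraicClosure ℚ,
      ∃ α β : ResidueField 𝒪, LinearMap.charpoly (ρbar.ρ σ) = (X - C α) * (X - C β))
    (hTW : ∀ (K : Type) [Field K] [Algebra (ResidueField 𝒪) K]
      (G : Subgroup (AlgebraicClosure ℚ ≃ₐ[ℚ] AlgebraicClosure ℚ)), G.index = 2 →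
      ∀ V : Submodule K (ρbar.baseChange K).V,
        (∀ σ ∈ G, ∀ x ∈ V, (ρbar.baseChange K).ρ σ x ∈ V) → V = ⊥ ∨ V = ⊤)
    (S Smin : Finset ℕ) (hpSmin : p ∈ Smin) (hSmin : Smin ⊆ S) (hS : ∀ q ∈ S, q.Prime)
    (hmin : ∀ q : ℕ, q.Prime → q ≠ p → (q ∈ Smin ↔ ¬ ρbar.IsUnramifiedAt q))
    (B : GWPackage p)
    (hram : ∃ σ ∈ (primeLocalPlace (pPrime p)).inertiaSubgroupIn ℚ, cycloChar p σ ≠ 1)
    (hA : FlatIface.FlatCountStatementSplit p (rbarOf ρbar)) :
    (∃ r : ℕ, ∀ n : ℕ, ∃ qv : Fin r → ℕ, Function.Injective qv ∧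
      (∀ i, (qv i).Prime ∧ qv i ∉ S ∧ p ^ (n + 1) ∣ qv i - 1) ∧
      (∀ i, ∀ P : ValuationSubring (AlgebraicClosure ℚ), P.LiesOverPrime (qv i) →
        ∀ φ : AlgebraicClosure ℚ ≃ₐ[ℚ] AlgebraicClosure ℚ, P.IsFrobeniusAt φ (qv i) →
          ∃ α β : ResidueField 𝒪, α ≠ β ∧ LinearMap.charpoly (ρbar.ρ φ) = (X - C α) * (X - C β)) ∧
      ∀ DQ : GaloisRep.DeformationRingData 𝒪 ρbar (fun _A _ _ _ ρ =>
          GaloisRep.strictOrdinaryCondition 𝒪 p (Smin ∪ Finset.univ.image qv) ρ ∧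
            ∀ q ∈ Smin, q.Prime → q ≠ p → ρ.IsUnipotentOnInertiaAt q),
        ∃ γ : MvPowerSeries (Fin r) 𝒪 →ₐ[𝒪] DQ.R, Function.Surjective γ) ∧
    (∃ r : ℕ, ∀ n : ℕ, ∃ qv : Fin r → ℕ, Function.Injective qv ∧
      (∀ i, (qv i).Prime ∧ qv i ∉ S ∧ p ^ (n + 1) ∣ qv i - 1) ∧
      (∀ i, ∀ P : ValuationSubring (AlgebraicClosure ℚ), P.LiesOverPrime (qv i) →
        ∀ φ : AlgebraicClosure ℚ ≃ₐ[ℚ] AlgebraicClosure ℚ, P.IsFrobeniusAt φ (qv i) →
          ∃ α β : ResidueField 𝒪, α ≠ β ∧ LinearMap.charpoly (ρbar.ρ φ) = (X - C α) * (X - C β)) ∧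
      ∀ DQ : GaloisRep.DeformationRingData 𝒪 ρbar (fun _A _ _ _ ρ =>
          GaloisRep.flatCondition 𝒪 p (Smin ∪ Finset.univ.image qv) ρ ∧
            ∀ q ∈ Smin, q.Prime → q ≠ p → ρ.IsUnipotentOnInertiaAt q),
        ∃ γ : MvPowerSeries (Fin r) 𝒪 →ₐ[𝒪] DQ.R, Function.Surjective γ) := by
  have hyp : Hyp p ρbar S Smin :=
    ⟨hp2, hp𝒪, habs, hdet, hsplit, hTW, hpSmin, hSmin, hS, hmin⟩
  exact s56_of_localData p hp2 hp𝒪 ρbar habs hdet hsplit hTW S Smin hpSmin hSmin hS hmin B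
    (localData_condSO p ρbar S Smin hyp hram)
    (localData_condFlat p ρbar S Smin hyp hA)

end Fermat.Agent.S56x.Assembly

end
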